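import Fermat.Agent.S05.Defs

/-!
# S05 (A): Weierstrass curves give Kummer lines
-/

namespace Fermat.Agent.S05

open WeierstrassCurve WeierstrassCurve.Affine

section A
variable {K : Type*} [Field K] [DecidableEq K]

/-- shifted x-coordinate -/
def xi (W : WeierstrassCurve.Affine K) (e : K) : W.Point → K
  | .zero => 0
  | .some x _ _ => x - e

/-- `2y + a₁ x + a₃` -/
def eta (W : WeierstrassCurve.Affine K) : W.Point → K
  | .zero => 0
  | .some x y _ => 2 * y + W.a₁ * x + W.a₃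

omit [DecidableEq K] in
theorem weier_eta_sq (W : WeierstrassCurve.Affine K) (e a b : K)
    (h1 : W.b₂ + 12 * e = 4 * a) (h2' : W.b₄ + e * W.b₂ + 6 * e ^ 2 = 2 * b)
    (h3 : W.b₆ + 2 * e * W.b₄ + e ^ 2 * W.b₂ + 4 * e ^ 3 = 0) {x y : K} (h : W.Equation x y) :
    (2 * y + W.a₁ * x + W.a₃) ^ 2 =
      4 * ((x - e) * ((x - e) ^ 2 + a * (x - e) + b)) := by
  rw [Affine.equation_iff] at h
  simp only [WeierstrassCurve.b₂, WeierstrassCurve.b₄, WeierstrassCurve.b₆] at h1 h2' h3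
  linear_combination 4 * h + (x - e) ^ 2 * h1 + 2 * (x - e) * h2' + h3

/-- the chord formula in terms of `ξ`, `η`. -/
theorem weier_add (W : WeierstrassCurve.Affine K) (e a : K)
    (h1 : W.b₂ + 12 * e = 4 * a) {x₁ x₂ y₁ y₂ : K} (hx : x₁ ≠ x₂) :
    4 * (x₁ - x₂) ^ 2 * (W.addX x₁ x₂ (W.slope x₁ x₂ y₁ y₂) - e) =
      ((2 * y₁ + W.a₁ * x₁ + W.a₃) - (2 * y₂ + W.a₁ * x₂ + W.a₃)) ^ 2 -
        4 * (a + (x₁ - e) + (x₂ - e)) * (x₁ - x₂) ^ 2 := by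
  have hd : x₁ - x₂ ≠ 0 := sub_ne_zero.mpr hx
  rw [Affine.slope_of_X_ne hx, Affine.addX]
  simp only [WeierstrassCurve.b₂] at h1
  have hl : (y₁ - y₂) / (x₁ - x₂) * (x₁ - x₂) = y₁ - y₂ := div_mul_cancel₀ _ hd
  generalize (y₁ - y₂) / (x₁ - x₂) = l at *
  linear_combination (4 * (l * (x₁ - x₂) + (y₁ - y₂)) + 4 * W.a₁ * (x₁ - x₂)) * hl -
    (x₁ - x₂) ^ 2 * h1

/-- the tangent formula in terms of `ξ`, `η`. -/
theorem weier_dbl (W : WeierstrassCurve.Affine K) (e a b : K)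
    (h1 : W.b₂ + 12 * e = 4 * a) (h2' : W.b₄ + e * W.b₂ + 6 * e ^ 2 = 2 * b)
    {x y : K} (hy : y ≠ W.negY x y) :
    4 * (2 * y + W.a₁ * x + W.a₃) ^ 2 * (W.addX x x (W.slope x x y y) - e) =
      (6 * (x - e) ^ 2 + 4 * a * (x - e) + 2 * b) ^ 2 -
        4 * (a + 2 * (x - e)) * (2 * y + W.a₁ * x + W.a₃) ^ 2 := by
  have hd : y - W.negY x y ≠ 0 := sub_ne_zero.mpr hy
  rw [Affine.slope_of_Y_ne rfl hy, Affine.addX]
  have hη : y - W.negY x y = 2 * y + W.a₁ * x + W.a₃ := by rw [Affine.negY]; ring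
  rw [hη] at hd ⊢
  simp only [WeierstrassCurve.b₂, WeierstrassCurve.b₄] at h1 h2'
  have hm : 6 * (x - e) ^ 2 + 4 * a * (x - e) + 2 * b =
      2 * (3 * x ^ 2 + 2 * W.a₂ * x + W.a₄ - W.a₁ * y) + W.a₁ * (2 * y + W.a₁ * x + W.a₃) := by
    linear_combination -(x - e) * h1 - h2'
  rw [hm]
  have hl : (3 * x ^ 2 + 2 * W.a₂ * x + W.a₄ - W.a₁ * y) / (2 * y + W.a₁ * x + W.a₃) *
      (2 * y + W.a₁ * x + W.a₃) = 3 * x ^ 2 + 2 * W.a₂ * x + W.a₄ - W.a₁ * y :=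
    div_mul_cancel₀ _ hd
  generalize (3 * x ^ 2 + 2 * W.a₂ * x + W.a₄ - W.a₁ * y) / (2 * y + W.a₁ * x + W.a₃) = l at *
  linear_combination (4 * (l * (2 * y + W.a₁ * x + W.a₃) +
      (3 * x ^ 2 + 2 * W.a₂ * x + W.a₄ - W.a₁ * y)) + 4 * W.a₁ * (2 * y + W.a₁ * x + W.a₃)) * hl -
    (2 * y + W.a₁ * x + W.a₃) ^ 2 * h1

theorem kline_weierstrass (W : WeierstrassCurve.Affine K) (h2 : (2 : K) ≠ 0) (e a b : K)
    (h1 : W.b₂ + 12 * e = 4 * a) (h2' : W.b₄ + e * W.b₂ + 6 * e ^ 2 = 2 * b)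
    (h3 : W.b₆ + 2 * e * W.b₄ + e ^ 2 * W.b₂ + 4 * e ^ 3 = 0) :
    KLine (xi W e) (eta W) a b := by
  have h4 : (4 : K) ≠ 0 := by
    have : (4 : K) = 2 * 2 := by norm_num
    rw [this]; exact mul_ne_zero h2 h2
  have h16 : (16 : K) ≠ 0 := by
    have : (16 : K) = 4 * 4 := by norm_num
    rw [this]; exact mul_ne_zero h4 h4
  -- common set-up for `sum` and `prod`
  have key : ∀ P Q : W.Point, P ≠ 0 → Q ≠ 0 → P + Q ≠ 0 → P - Q ≠ 0 →
      xi W e P - xi W e Q ≠ 0 ∧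
      4 * (xi W e P - xi W e Q) ^ 2 * xi W e (P + Q) =
        (eta W P - eta W Q) ^ 2 - 4 * (a + xi W e P + xi W e Q) * (xi W e P - xi W e Q) ^ 2 ∧
      4 * (xi W e P - xi W e Q) ^ 2 * xi W e (P - Q) =
        (eta W P + eta W Q) ^ 2 - 4 * (a + xi W e P + xi W e Q) * (xi W e P - xi W e Q) ^ 2 ∧
      eta W P ^ 2 = 4 * (xi W e P * (xi W e P ^ 2 + a * xi W e P + b)) ∧
      eta W Q ^ 2 = 4 * (xi W e Q * (xi W e Q ^ 2 + a * xi W e Q + b)) := by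
    intro P Q hP hQ hPQ hPQ'
    rcases P with _ | ⟨x₁, y₁, hn₁⟩
    · exact absurd rfl hP
    rcases Q with _ | ⟨x₂, y₂, hn₂⟩
    · exact absurd rfl hQ
    have hx : x₁ ≠ x₂ := by
      intro hx
      rcases (Point.X_eq_iff (h₁ := hn₁) (h₂ := hn₂)).mp hx with h | h
      · exact hPQ' (by rw [h, sub_self])
      · exact hPQ (by rw [h, neg_add_cancel])
    have hd : x₁ - e - (x₂ - e) = x₁ - x₂ := by ring
    refine ⟨?_, ?_, ?_, ?_, ?_⟩
    · simp only [xi]; rw [hd]; exact sub_ne_zero.mpr hx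
    · rw [Point.add_of_X_ne hx]
      simp only [xi, eta]
      rw [hd]
      exact weier_add W e a h1 hx
    · rw [show (Point.some x₁ y₁ hn₁ - Point.some x₂ y₂ hn₂) = Point.some x₁ y₁ hn₁ +
          Point.some x₂ (W.negY x₂ y₂) ((Affine.nonsingular_neg ..).mpr hn₂) from by
            rw [sub_eq_add_neg, Point.neg_some], Point.add_of_X_ne hx]
      simp only [xi, eta]
      rw [hd, weier_add W e a h1 hx, Affine.negY]
      ring
    · simp only [xi, eta]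
      exact weier_eta_sq W e a b h1 h2' h3 hn₁.1
    · simp only [xi, eta]
      exact weier_eta_sq W e a b h1 h2' h3 hn₂.1
  refine ⟨?_, ?_, ?_, ?_, ?_, ?_, ?_⟩
  · -- neg
    rintro (_ | ⟨x, y, h⟩)
    · rfl
    · rw [Point.neg_some]; rfl
  · -- inj
    intro P Q hP hQ hPQ
    rcases P with _ | ⟨x₁, y₁, hn₁⟩
    · exact absurd rfl hP
    rcases Q with _ | ⟨x₂, y₂, hn₂⟩
    · exact absurd rfl hQ
    simp only [xi] at hPQ
    exact (Point.X_eq_iff (h₁ := hn₁) (h₂ := hn₂)).mp (sub_left_injective hPQ)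
  · -- sum
    intro P Q hP hQ hPQ hPQ'
    obtain ⟨-, hp, hm, s₁, s₂⟩ := key P Q hP hQ hPQ hPQ'
    apply mul_left_cancel₀ h4
    linear_combination hp + hm + 2 * s₁ + 2 * s₂
  · -- prod
    intro P Q hP hQ hPQ hPQ'
    obtain ⟨hd, hp, hm, s₁, s₂⟩ := key P Q hP hQ hPQ hPQ'
    apply mul_left_cancel₀ (mul_ne_zero h16 (pow_ne_zero 2 hd))
    generalize xi W e (P + Q) = Xp at *
    generalize xi W e (P - Q) = Xm at *
    generalize xi W e P = ξ₁ at *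
    generalize xi W e Q = ξ₂ at *
    generalize eta W P = η₁ at *
    generalize eta W Q = η₂ at *
    linear_combination (4 * (ξ₁ - ξ₂) ^ 2 * Xm) * hp +
      ((η₁ - η₂) ^ 2 - 4 * (a + ξ₁ + ξ₂) * (ξ₁ - ξ₂) ^ 2) * hm +
      ((η₁ ^ 2 - η₂ ^ 2 + 4 * (ξ₁ * (ξ₁ ^ 2 + a * ξ₁ + b)) - 4 * (ξ₂ * (ξ₂ ^ 2 + a * ξ₂ + b)))
        - 2 * (4 * (a + ξ₁ + ξ₂) * (ξ₁ - ξ₂) ^ 2)) * s₁ +
      (-(η₁ ^ 2 - η₂ ^ 2 + 4 * (ξ₁ * (ξ₁ ^ 2 + a * ξ₁ + b)) - 4 * (ξ₂ * (ξ₂ ^ 2 + a * ξ₂ + b)))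
        - 2 * (4 * (a + ξ₁ + ξ₂) * (ξ₁ - ξ₂) ^ 2)) * s₂
  · -- dbl
    intro P hP hPP
    rcases P with _ | ⟨x, y, hn⟩
    · exact absurd rfl hP
    have hy : y ≠ W.negY x y := by
      intro hy
      exact hPP (Point.add_self_of_Y_eq hy)
    rw [Point.add_self_of_Y_ne hy]
    simp only [xi]
    have s := weier_eta_sq W e a b h1 h2' h3 hn.1
    have d := weier_dbl W e a b h1 h2' hy
    apply mul_left_cancel₀ h4
    generalize W.addX x x (W.slope x x y y) - e = X₂ at *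
    generalize 2 * y + W.a₁ * x + W.a₃ = η at *
    generalize x - e = ξ at *
    linear_combination d + (-4 * X₂ - 4 * (a + 2 * ξ)) * s
  · -- eta_sq
    intro P hP
    rcases P with _ | ⟨x, y, hn⟩
    · exact absurd rfl hP
    simp only [xi, eta]
    exact weier_eta_sq W e a b h1 h2' h3 hn.1
  · -- eta_neg
    rintro (_ | ⟨x, y, h⟩)
    · simp [eta]
      rfl
    · rw [Point.neg_some]
      simp only [eta, Affine.negY]
      ring

omit [DecidableEq K] in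
/-- a nonzero point is determined by `ξ` and `η`. -/
theorem eq_of_xi_eta (W : WeierstrassCurve.Affine K) (h2 : (2 : K) ≠ 0) (e : K) (P Q : W.Point)
    (hP : P ≠ 0) (hQ : Q ≠ 0) (h : xi W e P = xi W e Q) (h' : eta W P = eta W Q) : P = Q := by
  rcases P with _ | ⟨x₁, y₁, hn₁⟩
  · exact absurd rfl hP
  rcases Q with _ | ⟨x₂, y₂, hn₂⟩
  · exact absurd rfl hQ
  simp only [xi] at h
  simp only [eta] at h'
  have hx : x₁ = x₂ := sub_left_injective h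
  subst hx
  have hy : y₁ = y₂ := by
    apply mul_left_cancel₀ h2
    linear_combination h'
  subst hy
  rfl

end A

end Fermat.Agent.S05
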