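import Fermat.Agent.S05.Core
import Fermat.Agent.S05.Weier
import Fermat.Prelude.Def_FLTPrelim_Ramification

/-!
# S05 (F2): the Frey curve
-/

set_option autoImplicit false

namespace Fermat.Agent.S05

open WeierstrassCurve WeierstrassCurve.Affine WeierstrassCurve.Affine.Point

local notation "Kb" => AlgebraicClosure ℚ

/-- unpacking the definition of the inertia group -/
lemma frey_inertia (A : ValuationSubring Kb) (σ : Kb ≃ₐ[ℚ] Kb) (hσ : σ ∈ A.inertiaSubgroupIn ℚ) :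
    ∀ x ∈ A, σ x - x ∈ A.nonunits := by
  obtain ⟨τ, hτ, rfl⟩ := Subgroup.mem_map.1 hσ
  intro x hx
  have h1 : MulSemiringAction.toRingAut (A.decompositionSubgroup ℚ) (IsLocalRing.ResidueField A) τ
      = 1 := hτ
  have h2 : τ • (IsLocalRing.residue A ⟨x, hx⟩) = IsLocalRing.residue A ⟨x, hx⟩ := by
    have := congrArg (fun f => f (IsLocalRing.residue A ⟨x, hx⟩)) h1
    simpa using this
  rw [← IsLocalRing.ResidueField.residue_smul] at h2
  have h3 : IsLocalRing.residue A (τ • (⟨x, hx⟩ : A) - ⟨x, hx⟩) = 0 := by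
    rw [map_sub, h2, sub_self]
  rw [IsLocalRing.residue_eq_zero_iff] at h3
  rw [ValuationSubring.mem_nonunits_iff_exists_mem_maximalIdeal]
  exact ⟨_, h3⟩

section Action

variable (W' : Affine ℚ) (σ : Kb ≃ₐ[ℚ] Kb)

/-- the action of `σ` on points, as an additive homomorphism -/
noncomputable def freyS : (W'⁄Kb).Point →+ (W'⁄Kb).Point := Point.map σ.toAlgHom

lemma freyS_eq_zero (Q : (W'⁄Kb).Point) (h : freyS W' σ Q = 0) : Q = 0 := by
  cases Q with
  | zero => rfl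
  | some x y hxy =>
    rw [freyS, Point.map_some] at h
    exact absurd h (Point.some_ne_zero _)

lemma freyS_xi (e : Kb) (he : σ e = e) (Q : (W'⁄Kb).Point) (hQ : Q ≠ 0) :
    xi (W'⁄Kb) e (freyS W' σ Q) = σ (xi (W'⁄Kb) e Q) := by
  cases Q with
  | zero => exact absurd rfl hQ
  | some x y hxy =>
    simp only [freyS, Point.map_some, xi]
    rw [map_sub, he]
    rfl

lemma freyS_eta (Q : (W'⁄Kb).Point) (hQ : Q ≠ 0) :
    eta (W'⁄Kb) (freyS W' σ Q) = σ (eta (W'⁄Kb) Q) := by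
  cases Q with
  | zero => exact absurd rfl hQ
  | some x y hxy =>
    simp only [freyS, Point.map_some, eta]
    have h1 : σ (W'⁄Kb).a₁ = (W'⁄Kb).a₁ := by
      simp only [WeierstrassCurve.baseChange, WeierstrassCurve.map_a₁]
      exact σ.commutes _
    have h3 : σ (W'⁄Kb).a₃ = (W'⁄Kb).a₃ := by
      simp only [WeierstrassCurve.baseChange, WeierstrassCurve.map_a₃]
      exact σ.commutes _
    rw [map_add, map_add, map_mul, map_mul, h1, h3, map_ofNat]
    rfl

end Action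

section Coeff

variable (P : FreyPackage)

lemma frey_b₂ : (P.freyCurve⁄Kb).b₂ = ((P.b ^ P.p : ℤ) : Kb) - ((P.a ^ P.p : ℤ) : Kb) := by
  have h : P.freyCurve.b₂ = (P.b : ℚ) ^ P.p - (P.a : ℚ) ^ P.p := by
    simp only [FreyPackage.freyCurve, WeierstrassCurve.b₂]; ring
  simp only [WeierstrassCurve.baseChange, WeierstrassCurve.map_b₂, h]
  simp

lemma frey_b₄ : (P.freyCurve⁄Kb).b₄ = -(((P.a ^ P.p : ℤ) : Kb) * ((P.b ^ P.p : ℤ) : Kb)) / 8 := by
  have h : P.freyCurve.b₄ = -((P.a : ℚ) ^ P.p * (P.b : ℚ) ^ P.p) / 8 := by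
    simp only [FreyPackage.freyCurve, WeierstrassCurve.b₄]; ring
  simp only [WeierstrassCurve.baseChange, WeierstrassCurve.map_b₄, h]
  simp

lemma frey_b₆ : (P.freyCurve⁄Kb).b₆ = 0 := by
  have h : P.freyCurve.b₆ = 0 := by
    simp only [FreyPackage.freyCurve, WeierstrassCurve.b₆]; ring
  simp only [WeierstrassCurve.baseChange, WeierstrassCurve.map_b₆, h]
  simp

end Coeff

theorem frey_unramified (P : FreyPackage) {q : ℕ} (hq : q.Prime) (hq2 : q ≠ 2) (hqp : q ≠ P.p)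
    (A : ValuationSubring Kb) (hA : (q : Kb) ∈ A.nonunits) (σ : Kb ≃ₐ[ℚ] Kb)
    (hσ : σ ∈ A.inertiaSubgroupIn ℚ) (Q : (P.freyCurve⁄Kb).Point) (hQ : P.p • Q = 0) :
    freyS P.freyCurve σ Q = Q := by
  have hp : P.p.Prime := P.pp
  have hp2 : P.p ≠ 2 := by have := P.hp5; omega
  have hp0 : P.p ≠ 0 := hp.ne_zero
  have hqz : Prime (q : ℤ) := Nat.prime_iff_prime_int.1 hq
  have hin := frey_inertia A σ hσ
  have h2K : (2 : Kb) ≠ 0 := two_ne_zero
  have hv2 := core_val_two A hq hq2 hA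
  have hv4 : A.valuation (4 : Kb) = 1 := by
    have : (4 : Kb) = 2 * 2 := by norm_num
    rw [this, map_mul, hv2, one_mul]
  have hv16 : A.valuation (16 : Kb) = 1 := by
    have : (16 : Kb) = 4 * 4 := by norm_num
    rw [this, map_mul, hv4, one_mul]
  set A0 : Kb := ((P.a ^ P.p : ℤ) : Kb) with hA0
  set B0 : Kb := ((P.b ^ P.p : ℤ) : Kb) with hB0
  set C0 : Kb := ((P.c ^ P.p : ℤ) : Kb) with hC0
  have hABC : A0 + B0 = C0 := by
    rw [hA0, hB0, hC0]
    exact_mod_cast congrArg (Int.cast : ℤ → Kb) P.hFLT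
  have hb2 := frey_b₂ P
  have hb4 := frey_b₄ P
  have hb6 := frey_b₆ P
  rw [← hA0, ← hB0] at hb2 hb4
  have hσint : ∀ n : ℤ, (σ : Kb →+* Kb) (n : Kb) = n := fun n => map_intCast _ n
  have hnab : ¬ ((q : ℤ) ∣ P.a ∧ (q : ℤ) ∣ P.b) := by
    rintro ⟨h1, h2⟩
    have := dvd_gcd h1 h2
    rw [P.hgcdab] at this
    exact hqz.not_dvd_one this
  have hnac : ¬ ((q : ℤ) ∣ P.a ∧ (q : ℤ) ∣ P.c) := by
    rintro ⟨h1, h2⟩
    have := dvd_gcd h1 h2
    rw [P.hgcdac] at this
    exact hqz.not_dvd_one this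
  by_cases hab : (q : ℤ) ∣ P.a * P.b
  · -- multiplicative reduction, node at `0`
    have hk : KLine (xi (P.freyCurve⁄Kb) 0) (eta (P.freyCurve⁄Kb)) ((B0 - A0) / 4)
        (-(A0 * B0) / 16) :=
      kline_weierstrass _ h2K 0 _ _ (by rw [hb2]; ring) (by rw [hb2, hb4]; ring)
        (by rw [hb2, hb4, hb6]; ring)
    have hunit : ¬ (q : ℤ) ∣ P.b ^ P.p - P.a ^ P.p := by
      intro h
      rcases hqz.dvd_or_dvd hab with h1 | h1
      · have h3 : (q : ℤ) ∣ P.b ^ P.p := (dvd_sub_left (dvd_pow h1 hp0)).1 h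
        exact hnab ⟨h1, hqz.dvd_of_dvd_pow h3⟩
      · have h3 : (q : ℤ) ∣ P.a ^ P.p := (dvd_sub_right (dvd_pow h1 hp0)).1 h
        exact hnab ⟨hqz.dvd_of_dvd_pow h3, h1⟩
    have hva : A.valuation ((B0 - A0) / 4) = 1 := by
      rw [map_div₀, hv4, div_one]
      have := core_val_int_eq A hq hA hunit
      rw [hB0, hA0]
      exact_mod_cast this
    have hAB : A0 * B0 = (((P.a * P.b) ^ P.p : ℤ) : Kb) := by
      rw [hA0, hB0]; push_cast; ring
    have hvb' : A.valuation (-(A0 * B0) / 16) = A.valuation (((P.a * P.b : ℤ) : Kb)) ^ P.p := by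
      rw [map_div₀, hv16, div_one, Valuation.map_neg, hAB]
      push_cast
      rw [map_pow]
    have hvab : A.valuation (((P.a * P.b : ℤ) : Kb)) < 1 := core_val_int_lt A hA hab
    have hvb : A.valuation (-(A0 * B0) / 16) < 1 := by
      rw [hvb']; exact pow_lt_one₀ zero_le hvab hp0
    have hab0 : (((P.a * P.b : ℤ) : Kb)) ≠ 0 := by
      exact_mod_cast mul_ne_zero P.ha0 P.hb0
    have hb0 : -(A0 * B0) / 16 ≠ 0 := by
      rw [hAB]
      push_cast
      push_cast at hab0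
      exact div_ne_zero (neg_ne_zero.2 (pow_ne_zero _ hab0)) (by norm_num)
    exact core_mult A hk hp hp2 hq hq2 hqp.symm hA (σ : Kb →+* Kb) (freyS P.freyCurve σ) hin
      (freyS_eq_zero _ σ) (freyS_xi _ σ 0 (map_zero σ)) (freyS_eta _ σ) hva hvb hb0
      (((P.a * P.b) ^ 2 : ℤ) : Kb) (by push_cast; push_cast at hab0; exact pow_ne_zero _ hab0)
      (hσint _) (core_int_mem A _)
      (by rw [hvb']; push_cast; rw [map_pow, ← pow_mul, ← pow_mul, mul_comm 2 P.p]) Q hQ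
  by_cases hc : (q : ℤ) ∣ P.c
  · -- multiplicative reduction, node at `A0 / 4`
    have hk : KLine (xi (P.freyCurve⁄Kb) (A0 / 4)) (eta (P.freyCurve⁄Kb)) ((A0 + C0) / 4)
        (A0 * C0 / 16) :=
      kline_weierstrass _ h2K (A0 / 4) _ _ (by rw [hb2, ← hABC]; ring)
        (by rw [hb2, hb4, ← hABC]; ring) (by rw [hb2, hb4, hb6]; ring)
    have hunit : ¬ (q : ℤ) ∣ P.a ^ P.p + P.c ^ P.p := by
      intro h
      have h3 : (q : ℤ) ∣ P.a ^ P.p := (dvd_add_left (dvd_pow hc hp0)).1 h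
      exact hnac ⟨hqz.dvd_of_dvd_pow h3, hc⟩
    have hva : A.valuation ((A0 + C0) / 4) = 1 := by
      rw [map_div₀, hv4, div_one]
      have := core_val_int_eq A hq hA hunit
      rw [hC0, hA0]
      exact_mod_cast this
    have hAC : A0 * C0 = (((P.a * P.c) ^ P.p : ℤ) : Kb) := by
      rw [hA0, hC0]; push_cast; ring
    have hvb' : A.valuation (A0 * C0 / 16) = A.valuation (((P.a * P.c : ℤ) : Kb)) ^ P.p := by
      rw [map_div₀, hv16, div_one, hAC]
      push_cast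
      rw [map_pow]
    have hvac : A.valuation (((P.a * P.c : ℤ) : Kb)) < 1 :=
      core_val_int_lt A hA (hc.mul_left _)
    have hvb : A.valuation (A0 * C0 / 16) < 1 := by
      rw [hvb']; exact pow_lt_one₀ zero_le hvac hp0
    have hac0 : (((P.a * P.c : ℤ) : Kb)) ≠ 0 := by
      exact_mod_cast mul_ne_zero P.ha0 P.hc0
    have hb0 : A0 * C0 / 16 ≠ 0 := by
      rw [hAC]
      push_cast
      push_cast at hac0
      exact div_ne_zero (pow_ne_zero _ hac0) (by norm_num)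
    have he : σ (A0 / 4) = A0 / 4 := by
      rw [map_div₀, map_ofNat, hA0, map_intCast]
    exact core_mult A hk hp hp2 hq hq2 hqp.symm hA (σ : Kb →+* Kb) (freyS P.freyCurve σ) hin
      (freyS_eq_zero _ σ) (freyS_xi _ σ _ he) (freyS_eta _ σ) hva hvb hb0
      (((P.a * P.c) ^ 2 : ℤ) : Kb) (by push_cast; push_cast at hac0; exact pow_ne_zero _ hac0)
      (hσint _) (core_int_mem A _)
      (by rw [hvb']; push_cast; rw [map_pow, ← pow_mul, ← pow_mul, mul_comm 2 P.p]) Q hQ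
  · -- good reduction
    have hk : KLine (xi (P.freyCurve⁄Kb) 0) (eta (P.freyCurve⁄Kb)) ((B0 - A0) / 4)
        (-(A0 * B0) / 16) :=
      kline_weierstrass _ h2K 0 _ _ (by rw [hb2]; ring) (by rw [hb2, hb4]; ring)
        (by rw [hb2, hb4, hb6]; ring)
    have haA : (B0 - A0) / 4 ∈ A := by
      rw [← A.valuation_le_one_iff, map_div₀, hv4, div_one]
      have := core_val_int_le A (P.b ^ P.p - P.a ^ P.p)
      rw [hB0, hA0]
      exact_mod_cast this
    have hAB : A0 * B0 = (((P.a * P.b) ^ P.p : ℤ) : Kb) := by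
      rw [hA0, hB0]; push_cast; ring
    have hvb : A.valuation (-(A0 * B0) / 16) = 1 := by
      rw [map_div₀, hv16, div_one, Valuation.map_neg, hAB]
      exact core_val_int_eq A hq hA (fun h => hab (hqz.dvd_of_dvd_pow h))
    have hvd : A.valuation (((B0 - A0) / 4) ^ 2 - 4 * (-(A0 * B0) / 16)) = 1 := by
      have : ((B0 - A0) / 4) ^ 2 - 4 * (-(A0 * B0) / 16) = C0 ^ 2 / 16 := by
        rw [← hABC]; ring
      rw [this, map_div₀, hv16, div_one, map_pow, hC0,
        core_val_int_eq A hq hA (fun h => hc (hqz.dvd_of_dvd_pow h)), one_pow]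
    exact core_good A hk hp hp2 hq hq2 hqp.symm hA (σ : Kb →+* Kb) (freyS P.freyCurve σ) hin
      (freyS_eq_zero _ σ) (freyS_xi _ σ 0 (map_zero σ)) (freyS_eta _ σ) haA hvb hvd Q hQ

end Fermat.Agent.S05
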