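import Fermat.Agent.S05.Defs

/-!
# S05 (D): the valuation of `η`
-/

set_option autoImplicit false

namespace Fermat.Agent.S05

variable {G K : Type*} [AddCommGroup G] [Field K] {ξ η : G → K} {a b : K}

/-- for `p` odd, `P ≠ 0` of order `p`, `P + P` is again a nonzero point of order `p`. -/
lemma eta_two_ne {p : ℕ} (hp : p.Prime) (hp2 : p ≠ 2) (P : G) (hP : P ≠ 0) (hpP : p • P = 0) :
    P + P ≠ 0 ∧ p • (P + P) = 0 := by
  refine ⟨fun h => hP ?_, by rw [smul_add, hpP, add_zero]⟩
  obtain ⟨k, hk⟩ := hp.odd_of_ne_two hp2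
  have h2 : (2 * k) • P = 0 := by
    rw [mul_comm, mul_smul, two_smul, h, smul_zero]
  have : p • P = (2 * k) • P + P := by rw [hk, add_smul, one_smul]
  rw [hpP, h2, zero_add] at this
  exact this.symm

lemma eta_val_four (A : ValuationSubring K) (h2 : A.valuation 2 = 1) : A.valuation 4 = 1 := by
  have : (4 : K) = 2 * 2 := by norm_num
  rw [this, map_mul, h2, one_mul]

lemma eta_eq_one_of_sq {Γ : Type*} [LinearOrderedCommGroupWithZero Γ] {x : Γ} (h : x ^ 2 = 1) :
    x = 1 := by
  rcases lt_trichotomy x 1 with h1 | h1 | h1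
  · exact absurd h (ne_of_lt (pow_lt_one₀ zero_le h1 two_ne_zero))
  · exact h1
  · exact absurd h (ne_of_gt (one_lt_pow₀ h1 two_ne_zero))

theorem eta_unit_mult (A : ValuationSubring K) (h : KLine ξ η a b) (ha : A.valuation a = 1)
    (hb : A.valuation b < 1) (h2 : A.valuation 2 = 1) {p : ℕ} (hp : p.Prime) (hp2 : p ≠ 2)
    (hint : ∀ Q : G, Q ≠ 0 → p • Q = 0 → ξ Q ∈ A) (P : G) (hP : P ≠ 0) (hpP : p • P = 0)
    (hξ : A.valuation (ξ P) = 1) : A.valuation (η P) = 1 := by
  obtain ⟨h2P, hp2P⟩ := eta_two_ne hp hp2 P hP hpP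
  have hd := h.dbl P hP h2P
  have he := h.eta_sq P hP
  rw [← he] at hd
  have h1 : A.valuation (ξ P ^ 2 - b) = 1 := by
    have : A.valuation b < A.valuation (ξ P ^ 2) := by rw [map_pow, hξ, one_pow]; exact hb
    rw [Valuation.map_sub_eq_of_lt_left _ this, map_pow, hξ, one_pow]
  have h3 : A.valuation (ξ (P + P)) ≤ 1 := (A.valuation_le_one_iff _).2 (hint _ h2P hp2P)
  have h4 := congrArg A.valuation hd
  rw [map_mul, map_pow, map_pow, h1, one_pow] at h4
  have h5 : A.valuation (η P) ≤ 1 := by
    have h6 : A.valuation (η P) ^ 2 ≤ 1 := by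
      rw [← map_pow, he, map_mul, eta_val_four A h2, one_mul, map_mul, hξ, one_mul]
      refine (A.valuation.map_add _ _).trans (max_le ((A.valuation.map_add _ _).trans (max_le ?_ ?_))
        hb.le)
      · rw [map_pow, hξ, one_pow]
      · rw [map_mul, ha, hξ, one_mul]
    by_contra hcon
    push Not at hcon
    exact absurd h6 (not_le.2 (one_lt_pow₀ hcon two_ne_zero))
  apply eta_eq_one_of_sq
  apply le_antisymm (pow_le_one₀ zero_le h5)
  calc (1 : A.ValueGroup) = A.valuation (η P) ^ 2 * A.valuation (ξ (P + P)) := h4.symm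
    _ ≤ A.valuation (η P) ^ 2 * 1 := by gcongr
    _ = A.valuation (η P) ^ 2 := mul_one _

theorem eta_val_node (A : ValuationSubring K) (h : KLine ξ η a b) (ha : A.valuation a = 1)
    (h2 : A.valuation 2 = 1) (P : G) (hP : P ≠ 0)
    (hξ : A.valuation (ξ P) < 1) (hb : A.valuation b < A.valuation (ξ P)) :
    A.valuation (η P) = A.valuation (ξ P) := by
  have he := h.eta_sq P hP
  have hpos : 0 < A.valuation (ξ P) := lt_of_le_of_lt zero_le hb
  have h1 : A.valuation (ξ P ^ 2) < A.valuation (a * ξ P) := by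
    rw [map_pow, map_mul, ha, one_mul, pow_two]
    calc A.valuation (ξ P) * A.valuation (ξ P) < 1 * A.valuation (ξ P) :=
          mul_lt_mul_of_pos_right hξ hpos
      _ = A.valuation (ξ P) := one_mul _
  have h3 : A.valuation (ξ P ^ 2 + a * ξ P) = A.valuation (ξ P) := by
    rw [Valuation.map_add_eq_of_lt_right _ h1, map_mul, ha, one_mul]
  have h4 : A.valuation (ξ P ^ 2 + a * ξ P + b) = A.valuation (ξ P) := by
    rw [Valuation.map_add_eq_of_lt_left _ (by rw [h3]; exact hb), h3]
  have h5 := congrArg A.valuation he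
  rw [map_pow, map_mul, eta_val_four A h2, one_mul, map_mul, h4, ← pow_two] at h5
  exact (pow_left_inj₀ zero_le zero_le two_ne_zero).1 h5

theorem eta_unit_good (A : ValuationSubring K) (h : KLine ξ η a b) (ha : a ∈ A)
    (hb : A.valuation b = 1) (hd : A.valuation (a ^ 2 - 4 * b) = 1)
    (h2 : A.valuation 2 = 1) {p : ℕ} (hp : p.Prime) (hp2 : p ≠ 2)
    (hint : ∀ Q : G, Q ≠ 0 → p • Q = 0 → ξ Q ∈ A) (P : G) (hP : P ≠ 0) (hpP : p • P = 0) :
    A.valuation (ξ P) = 1 ∧ A.valuation (η P) = 1 := by
  obtain ⟨h2P, hp2P⟩ := eta_two_ne hp hp2 P hP hpP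
  have hdb := h.dbl P hP h2P
  have he := h.eta_sq P hP
  have ha1 : A.valuation a ≤ 1 := (A.valuation_le_one_iff _).2 ha
  have hx1 : A.valuation (ξ P) ≤ 1 := (A.valuation_le_one_iff _).2 (hint _ hP hpP)
  have hx2 : A.valuation (ξ (P + P)) ≤ 1 := (A.valuation_le_one_iff _).2 (hint _ h2P hp2P)
  set x := ξ P with hx
  set w := x ^ 2 + a * x + b with hw
  set u := x ^ 2 - b with hu
  have hw1 : A.valuation w ≤ 1 := by
    refine (A.valuation.map_add _ _).trans (max_le ((A.valuation.map_add _ _).trans (max_le ?_ ?_))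
      hb.le)
    · rw [map_pow]; exact pow_le_one₀ zero_le hx1
    · rw [map_mul]; exact mul_le_one₀ ha1 zero_le hx1
  -- the key claim
  have hf : A.valuation (x * w) = 1 := by
    apply le_antisymm
    · rw [map_mul]; exact mul_le_one₀ hx1 zero_le hw1
    by_contra hcon
    push Not at hcon
    have hu1 : A.valuation u < 1 := by
      have h4 := congrArg A.valuation hdb
      rw [map_mul, map_mul, eta_val_four A h2, one_mul, map_pow] at h4
      have h5 : A.valuation u ^ 2 < 1 := by
        rw [← h4]
        calc A.valuation (x * w) * A.valuation (ξ (P + P)) ≤ A.valuation (x * w) * 1 := by gcongr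
          _ < 1 := by rw [mul_one]; exact hcon
      by_contra h6
      push Not at h6
      exact absurd h5 (not_lt.2 (one_le_pow₀ h6))
    rcases lt_or_eq_of_le hx1 with hxlt | hxeq
    · have : A.valuation (x ^ 2) < A.valuation b := by
        rw [map_pow, hb]; exact pow_lt_one₀ zero_le hxlt two_ne_zero
      rw [hu, Valuation.map_sub_eq_of_lt_right _ this, hb] at hu1
      exact lt_irrefl _ hu1
    · have hwlt : A.valuation w < 1 := by
        rw [map_mul, hxeq, one_mul] at hcon
        exact hcon
      have hid : b * (a ^ 2 - 4 * b) = -(a ^ 2) * u + (a * x - 2 * b) * (w - u) := by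
        rw [hw, hu]; ring
      have h7 : A.valuation (b * (a ^ 2 - 4 * b)) < 1 := by
        rw [hid]
        apply Valuation.map_add_lt
        · rw [map_mul, Valuation.map_neg, map_pow]
          calc A.valuation a ^ 2 * A.valuation u ≤ 1 * A.valuation u := by
                gcongr
                exact pow_le_one₀ zero_le ha1
            _ < 1 := by rw [one_mul]; exact hu1
        · rw [map_mul]
          have h8 : A.valuation (a * x - 2 * b) ≤ 1 := by
            refine (A.valuation.map_sub _ _).trans (max_le ?_ ?_)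
            · rw [map_mul]; exact mul_le_one₀ ha1 zero_le hx1
            · rw [map_mul, h2, hb, one_mul]
          have h9 : A.valuation (w - u) < 1 := Valuation.map_sub_lt _ hwlt hu1
          calc A.valuation (a * x - 2 * b) * A.valuation (w - u) ≤ 1 * A.valuation (w - u) := by
                gcongr
            _ < 1 := by rw [one_mul]; exact h9
      rw [map_mul, hb, hd, one_mul] at h7
      exact lt_irrefl _ h7
  constructor
  · apply le_antisymm hx1
    rw [map_mul] at hf
    calc (1 : A.ValueGroup) = A.valuation x * A.valuation w := hf.symm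
      _ ≤ A.valuation x * 1 := by gcongr
      _ = A.valuation x := mul_one _
  · apply eta_eq_one_of_sq
    rw [← map_pow, he, map_mul, eta_val_four A h2, one_mul, hf]

end Fermat.Agent.S05
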