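import Fermat.Agent.S05.Defs

/-!
# S05 (E): the inertia step
-/

set_option autoImplicit false

namespace Fermat.Agent.S05

variable {G K : Type*} [AddCommGroup G] [Field K] {ξ η : G → K} {a b : K}

/-- an element of the inertia group moves an element of valuation `v d`, `σ d = d`, by something
of smaller valuation. -/
lemma inertia_sub_lt (A : ValuationSubring K) (σ : K →+* K)
    (hσ : ∀ x ∈ A, σ x - x ∈ A.nonunits) (d : K) (hd0 : d ≠ 0) (hσd : σ d = d) (x : K)
    (hx : A.valuation x = A.valuation d) : A.valuation (σ x - x) < A.valuation d := by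
  have hD : 0 < A.valuation d := (Valuation.pos_iff _).2 hd0
  have hu : x / d ∈ A := by
    rw [← A.valuation_le_one_iff, map_div₀, hx, div_self hD.ne']
  have h1 := (A.mem_nonunits_iff).1 (hσ _ hu)
  have h2 : σ x - x = d * (σ (x / d) - x / d) := by
    rw [map_div₀, hσd]
    field_simp
  rw [h2, map_mul]
  calc A.valuation d * A.valuation (σ (x / d) - x / d) < A.valuation d * 1 :=
        mul_lt_mul_of_pos_left h1 hD
    _ = A.valuation d := mul_one _

theorem fixed_of_val (A : ValuationSubring K) (h : KLine ξ η a b) (ha : a ∈ A)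
    (h2 : A.valuation 2 = 1) (σ : K →+* K) (s : G →+ G)
    (hσ : ∀ x ∈ A, σ x - x ∈ A.nonunits)
    (hs0 : ∀ Q, s Q = 0 → Q = 0)
    (hsξ : ∀ Q, Q ≠ 0 → ξ (s Q) = σ (ξ Q)) (hsη : ∀ Q, Q ≠ 0 → η (s Q) = σ (η Q))
    {p : ℕ} (hint : ∀ Q : G, Q ≠ 0 → p • Q = 0 → ξ Q ∈ A) (P : G) (hP : P ≠ 0) (hpP : p • P = 0)
    (d : K) (hd0 : d ≠ 0) (hσd : σ d = d) (hd1 : d ∈ A)
    (hξ : A.valuation (ξ P) = A.valuation d) (hη : A.valuation (η P) = A.valuation d)
    (hb : A.valuation b ≤ A.valuation d) : s P = P := by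
  have hD : 0 < A.valuation d := (Valuation.pos_iff _).2 hd0
  have hD1 : A.valuation d ≤ 1 := (A.valuation_le_one_iff _).2 hd1
  have ha1 : A.valuation a ≤ 1 := (A.valuation_le_one_iff _).2 ha
  have h4 : A.valuation 4 = 1 := by
    have : (4 : K) = 2 * 2 := by norm_num
    rw [this, map_mul, h2, one_mul]
  by_contra hne
  have hsP : s P ≠ 0 := fun h0 => hP (hs0 P h0)
  -- `s P ≠ - P`
  have hne' : s P + P ≠ 0 := by
    intro h0
    have h1 : s P = -P := eq_neg_of_add_eq_zero_left h0
    have h3 : σ (η P) = -η P := by rw [← hsη P hP, h1, h.eta_neg]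
    have h5 := inertia_sub_lt A σ hσ d hd0 hσd (η P) hη
    have h6 : σ (η P) - η P = -(2 * η P) := by rw [h3]; ring
    rw [h6, Valuation.map_neg, map_mul, h2, one_mul, hη] at h5
    exact lt_irrefl _ h5
  have hne'' : s P - P ≠ 0 := fun h0 => hne (sub_eq_zero.1 h0)
  have hsum := h.sum (s P) P hsP hP hne' hne''
  have hp1 : p • (s P + P) = 0 := by rw [smul_add, ← map_nsmul, hpP, map_zero, add_zero]
  have hp2 : p • (s P - P) = 0 := by rw [smul_sub, ← map_nsmul, hpP, map_zero, sub_zero]
  have hS : A.valuation (ξ (s P + P) + ξ (s P - P)) ≤ 1 :=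
    (A.valuation_le_one_iff _).2 (A.add_mem _ _ (hint _ hne' hp1) (hint _ hne'' hp2))
  rw [hsξ P hP] at hsum
  set x := ξ P with hx
  set δ := σ x - x with hδ
  have hδlt : A.valuation δ < A.valuation d := inertia_sub_lt A σ hσ d hd0 hσd x hξ
  have hx' : A.valuation (σ x) ≤ A.valuation d := by
    have : σ x = x + δ := by rw [hδ]; ring
    rw [this]
    exact (A.valuation.map_add _ _).trans (max_le hξ.le hδlt.le)
  -- the left hand side is small
  have hL : A.valuation (δ ^ 2 * (ξ (s P + P) + ξ (s P - P))) < A.valuation d ^ 2 := by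
    rw [map_mul, map_pow]
    calc A.valuation δ ^ 2 * A.valuation (ξ (s P + P) + ξ (s P - P)) ≤ A.valuation δ ^ 2 * 1 := by
          gcongr
      _ = A.valuation δ ^ 2 := mul_one _
      _ < A.valuation d ^ 2 := pow_lt_pow_left₀ hδlt zero_le two_ne_zero
  -- the right hand side is not
  have hR : 2 * ((σ x + x) * (σ x * x + b) + 2 * a * (σ x * x)) =
      η P ^ 2 + δ * (2 * (x * (σ x + x) + x ^ 2 + b) + 4 * a * x) := by
    rw [h.eta_sq P hP, hδ]; ring
  have hB : A.valuation (2 * (x * (σ x + x) + x ^ 2 + b) + 4 * a * x) ≤ A.valuation d := by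
    refine (A.valuation.map_add _ _).trans (max_le ?_ ?_)
    · rw [map_mul, h2, one_mul]
      refine (A.valuation.map_add _ _).trans (max_le ((A.valuation.map_add _ _).trans
        (max_le ?_ ?_)) hb)
      · rw [map_mul, hξ]
        have : A.valuation (σ x + x) ≤ 1 :=
          (A.valuation.map_add _ _).trans (max_le (hx'.trans hD1) (hξ.le.trans hD1))
        calc A.valuation d * A.valuation (σ x + x) ≤ A.valuation d * 1 := by gcongr
          _ = A.valuation d := mul_one _
      · rw [map_pow, hξ, pow_two]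
        calc A.valuation d * A.valuation d ≤ A.valuation d * 1 := by gcongr
          _ = A.valuation d := mul_one _
    · rw [map_mul, map_mul, h4, one_mul, hξ]
      calc A.valuation a * A.valuation d ≤ 1 * A.valuation d := by gcongr
        _ = A.valuation d := one_mul _
  have hsmall : A.valuation (δ * (2 * (x * (σ x + x) + x ^ 2 + b) + 4 * a * x)) <
      A.valuation (η P ^ 2) := by
    rw [map_mul, map_pow, hη]
    calc A.valuation δ * A.valuation (2 * (x * (σ x + x) + x ^ 2 + b) + 4 * a * x)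
        ≤ A.valuation δ * A.valuation d := by gcongr
      _ < A.valuation d * A.valuation d := mul_lt_mul_of_pos_right hδlt hD
      _ = A.valuation d ^ 2 := (pow_two _).symm
  rw [hsum, hR, Valuation.map_add_eq_of_lt_left _ hsmall, map_pow, hη] at hL
  exact lt_irrefl _ hL

end Fermat.Agent.S05
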