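import Mathlib

/-!
# S05: x-only ("Kummer line") arithmetic of `Y² = ξ³ + a ξ² + b ξ`

`ξ P` is the (shifted) x-coordinate, `η P = 2 Y`; both have junk value at `P = 0`.
-/

namespace Fermat.Agent.S05

/-- x-only arithmetic on `Y² = ξ (ξ² + a ξ + b)`, together with `η = 2Y`. -/
structure KLine {G K : Type*} [AddCommGroup G] [Field K] (ξ η : G → K) (a b : K) : Prop where
  neg : ∀ P, ξ (-P) = ξ P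
  inj : ∀ P Q, P ≠ 0 → Q ≠ 0 → ξ P = ξ Q → P = Q ∨ P = -Q
  sum : ∀ P Q, P ≠ 0 → Q ≠ 0 → P + Q ≠ 0 → P - Q ≠ 0 →
    (ξ P - ξ Q) ^ 2 * (ξ (P + Q) + ξ (P - Q)) =
      2 * ((ξ P + ξ Q) * (ξ P * ξ Q + b) + 2 * a * (ξ P * ξ Q))
  prod : ∀ P Q, P ≠ 0 → Q ≠ 0 → P + Q ≠ 0 → P - Q ≠ 0 →
    (ξ P - ξ Q) ^ 2 * (ξ (P + Q) * ξ (P - Q)) = (ξ P * ξ Q - b) ^ 2
  dbl : ∀ P, P ≠ 0 → P + P ≠ 0 →
    4 * (ξ P * (ξ P ^ 2 + a * ξ P + b)) * ξ (P + P) = (ξ P ^ 2 - b) ^ 2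
  eta_sq : ∀ P, P ≠ 0 → η P ^ 2 = 4 * (ξ P * (ξ P ^ 2 + a * ξ P + b))
  eta_neg : ∀ P, η (-P) = -η P

end Fermat.Agent.S05
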