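import Mathlib
import Fermat.Agent.S05.Defs

/-!
# S05 (B): torsion points of order prime to the residue characteristic are integral
-/

namespace Fermat.Agent.S05

variable {G K : Type*} [AddCommGroup G] [Field K] {ξ η : G → K} {a b : K}

/-- multiples of a point of prime order -/
theorem int_nsmul_ne_zero {p : ℕ} (hp : p.Prime) {P : G} (hP : P ≠ 0) (hpP : p • P = 0)
    {n : ℕ} (hn : ¬ p ∣ n) : n • P ≠ 0 := by
  intro h0
  have hcop : Nat.Coprime p n := (Nat.Prime.coprime_iff_not_dvd hp).mpr hn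
  have h1 : (Nat.gcd p n : ℤ) • P = 0 := by
    rw [Nat.gcd_eq_gcd_ab, add_smul, mul_comm, mul_smul, mul_comm (n : ℤ), mul_smul,
      natCast_zsmul, natCast_zsmul, hpP, h0, smul_zero, smul_zero, add_zero]
  rw [hcop] at h1
  simp at h1
  exact hP h1

theorem int_core (A : ValuationSubring K) (h : KLine ξ η a b) (ha : a ∈ A) (hb : b ∈ A)
    {p q : ℕ} (hp : p.Prime) (hp2 : p ≠ 2) (hq : q.Prime) (hq2 : q ≠ 2) (hpq : p ≠ q)
    (hqA : (q : K) ∈ A.nonunits) (P : G) (hP : P ≠ 0) (hpP : p • P = 0)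
    (hmax : ∀ n : ℕ, 1 ≤ n → n < p → A.valuation (ξ (n • P)) ≤ A.valuation (ξ P)) :
    ξ P ∈ A := by
  by_contra hx
  have hp3 : 3 ≤ p := by
    have := hp.two_le
    omega
  have hq3 : 3 ≤ q := by
    have := hq.two_le
    omega
  set x := ξ P with hxdef
  have hx0 : x ≠ 0 := fun h0 => hx (h0 ▸ A.zero_mem)
  have hvx : 1 < A.valuation x := by
    rw [← not_le, A.valuation_le_one_iff]
    exact hx
  have hvx0 : A.valuation x ≠ 0 := (Valuation.ne_zero_iff _).mpr hx0
  have hvu : A.valuation x⁻¹ < 1 := by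
    rw [map_inv₀]
    exact inv_lt_one_of_one_lt₀ hvx
  have hu : x⁻¹ ∈ A := (A.valuation_le_one_iff _).mp hvu.le
  -- the elements of `A`
  let u' : A := ⟨x⁻¹, hu⟩
  let a' : A := ⟨a, ha⟩
  let b' : A := ⟨b, hb⟩
  have ht : ∀ n : ℕ, ∃ tn : A, (1 ≤ n ∧ n < p) → (tn : K) = ξ (n • P) * x⁻¹ := by
    intro n
    by_cases hn : 1 ≤ n ∧ n < p
    · refine ⟨⟨ξ (n • P) * x⁻¹, ?_⟩, fun _ => rfl⟩
      rw [← A.valuation_le_one_iff, map_mul, map_inv₀]
      have := hmax n hn.1 hn.2
      calc A.valuation (ξ (n • P)) * (A.valuation x)⁻¹ ≤ A.valuation x * (A.valuation x)⁻¹ :=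
            mul_le_mul_left this _
        _ = 1 := mul_inv_cancel₀ hvx0
    · exact ⟨0, fun h => absurd h hn⟩
  choose t ht using ht
  let φ := IsLocalRing.residue A
  have hφu : φ u' = 0 := by
    rw [IsLocalRing.residue_eq_zero_iff, A.valuation_lt_one_iff]
    exact hvu
  have hφq : ((q : ℕ) : IsLocalRing.ResidueField A) = 0 := by
    have h1 : φ (q : A) = 0 := by
      rw [IsLocalRing.residue_eq_zero_iff, A.valuation_lt_one_iff]
      have := (ValuationSubring.mem_nonunits_iff (A := A)).mp hqA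
      simpa using this
    simpa using h1
  have hchar : CharP (IsLocalRing.ResidueField A) q := by
    have := CharP.ringChar_of_prime_eq_zero hq hφq
    rw [← this]
    exact ringChar.charP _
  have hne : ∀ n : ℕ, 1 ≤ n → n < p → n • P ≠ 0 := fun n h1 h2 =>
    int_nsmul_ne_zero hp hP hpP (Nat.not_dvd_of_pos_of_lt h1 h2)
  have ht1 : t 1 = 1 := by
    apply Subtype.ext
    rw [ht 1 ⟨le_refl _, by omega⟩, one_smul]
    exact mul_inv_cancel₀ hx0
  have hdbl : 4 * (1 + a' * u' + b' * u' ^ 2) * t 2 = (1 - b' * u' ^ 2) ^ 2 := by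
    apply Subtype.ext
    push_cast
    rw [ht 2 ⟨by omega, by omega⟩]
    have h1 := h.dbl P hP (by rw [← two_smul ℕ]; exact hne 2 (by omega) (by omega))
    rw [← two_smul ℕ P] at h1
    change 4 * (1 + a * x⁻¹ + b * x⁻¹ ^ 2) * (ξ (2 • P) * x⁻¹) = (1 - b * x⁻¹ ^ 2) ^ 2
    field_simp
    linear_combination h1
  have hprod : ∀ m : ℕ, 1 ≤ m → m + 2 < p →
      (t (m + 1) - 1) ^ 2 * (t (m + 2) * t m) = (t (m + 1) - b' * u' ^ 2) ^ 2 := by
    intro m hm1 hm2
    apply Subtype.ext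
    push_cast
    rw [ht m ⟨by omega, by omega⟩, ht (m + 1) ⟨by omega, by omega⟩,
      ht (m + 2) ⟨by omega, by omega⟩]
    have e1 : (m + 1) • P + P = (m + 2) • P := (succ_nsmul P (m + 1)).symm
    have e2 : (m + 1) • P - P = m • P := by rw [succ_nsmul, add_sub_cancel_right]
    have h1 := h.prod ((m + 1) • P) P (hne _ (by omega) (by omega)) hP
      (by rw [e1]; exact hne _ (by omega) (by omega))
      (by rw [e2]; exact hne _ (by omega) (by omega))
    rw [e1, e2] at h1
    change (ξ ((m + 1) • P) * x⁻¹ - 1) ^ 2 * (ξ ((m + 2) • P) * x⁻¹ * (ξ (m • P) * x⁻¹)) =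
      (ξ ((m + 1) • P) * x⁻¹ - b * x⁻¹ ^ 2) ^ 2
    field_simp
    linear_combination h1
  let τ : ℕ → IsLocalRing.ResidueField A := fun n => φ (t n)
  have hτ1 : τ 1 = 1 := by simp [τ, ht1]
  have hτ2 : 4 * τ 2 = 1 := by
    have := congrArg φ hdbl
    simp only [map_mul, map_add, map_sub, map_pow, map_one, hφu, map_ofNat] at this
    simpa using this
  have hτprod : ∀ m : ℕ, 1 ≤ m → m + 2 < p →
      (τ (m + 1) - 1) ^ 2 * (τ (m + 2) * τ m) = τ (m + 1) ^ 2 := by
    intro m h1 h2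
    have := congrArg φ (hprod m h1 h2)
    simp only [map_mul, map_sub, map_pow, map_one, hφu] at this
    simpa using this
  have hcast : ∀ n : ℕ, 1 ≤ n → n < q → ((n : ℕ) : IsLocalRing.ResidueField A) ≠ 0 := by
    intro n h1 h2 h0
    rw [CharP.cast_eq_zero_iff _ q] at h0
    exact Nat.not_dvd_of_pos_of_lt h1 h2 h0
  have key : ∀ n : ℕ, 1 ≤ n → n + 1 < p → n + 1 ≤ q →
      ((n : ℕ) : IsLocalRing.ResidueField A) ^ 2 * τ n = 1 ∧
        ((n + 1 : ℕ) : IsLocalRing.ResidueField A) ^ 2 * τ (n + 1) = 1 := by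
    intro n hn
    induction n, hn using Nat.le_induction with
    | base =>
      intro _ _
      refine ⟨by simp [hτ1], ?_⟩
      push_cast
      linear_combination hτ2
    | succ n hn ih =>
      intro h1 h2
      obtain ⟨c1, c2⟩ := ih (by omega) (by omega)
      refine ⟨c2, ?_⟩
      have hp' := hτprod n hn (by omega)
      have hn0 := hcast n hn (by omega)
      have h3 : ((n : ℕ) : IsLocalRing.ResidueField A) ^ 2 *
          (((n + 1 + 1 : ℕ) : IsLocalRing.ResidueField A) ^ 2 * τ (n + 1 + 1) - 1) = 0 := by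
        push_cast at c2 ⊢
        generalize τ (n + 1 + 1) = r at *
        generalize τ (n + 1) = s at *
        generalize τ n = w at *
        generalize ((n : ℕ) : IsLocalRing.ResidueField A) = m at *
        linear_combination (-((m + 1) ^ 2 * s - (m + 1) ^ 2) ^ 2 * r) * c1 +
          (-(1 + (m + 1) ^ 2 * s - 2 * (m + 1) ^ 2) * r + m ^ 2 * ((m + 1) ^ 2 * s + 1)) * c2 +
          ((m + 1) ^ 4 * m ^ 2) * hp'
      exact sub_eq_zero.mp ((mul_eq_zero.mp h3).resolve_left (pow_ne_zero 2 hn0))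
  rcases lt_or_gt_of_ne hpq with hlt | hgt
  · -- `p < q`
    obtain ⟨-, c⟩ := key (p - 2) (by omega) (by omega) (by omega)
    have e : p - 2 + 1 = p - 1 := by omega
    rw [e] at c
    have htp : t (p - 1) = 1 := by
      apply Subtype.ext
      rw [ht (p - 1) ⟨by omega, by omega⟩]
      have h4 : (p - 1) • P = -P := by
        rw [eq_neg_iff_add_eq_zero, ← succ_nsmul, Nat.sub_add_cancel (by omega), hpP]
      rw [h4, h.neg]
      exact mul_inv_cancel₀ hx0
    have h5 : τ (p - 1) = 1 := by simp [τ, htp]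
    rw [h5, mul_one] at c
    have h0 : ((p * (p - 2) : ℕ) : IsLocalRing.ResidueField A) = 0 := by
      have e2 : p * (p - 2) + 1 = (p - 1) ^ 2 := by
        obtain ⟨r, rfl⟩ : ∃ r, p = r + 2 := ⟨p - 2, by omega⟩
        simp
        ring
      have h6 : ((p * (p - 2) + 1 : ℕ) : IsLocalRing.ResidueField A) = 1 := by
        rw [e2]
        push_cast
        exact c
      rw [Nat.cast_add, Nat.cast_one] at h6
      linear_combination h6
    rw [CharP.cast_eq_zero_iff _ q] at h0
    rcases (Nat.Prime.dvd_mul hq).mp h0 with h1 | h1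
    · exact hpq ((Nat.prime_dvd_prime_iff_eq hq hp).mp h1).symm
    · exact Nat.not_dvd_of_pos_of_lt (by omega) (by omega) h1
  · -- `q < p`
    obtain ⟨-, c⟩ := key (q - 1) (by omega) (by omega) (by omega)
    rw [Nat.sub_add_cancel (by omega), hφq] at c
    simp at c

/-- (B) torsion points of order prime to the residue characteristic are integral -/
theorem integral_of_torsion (A : ValuationSubring K) (h : KLine ξ η a b) (ha : a ∈ A) (hb : b ∈ A)
    {p q : ℕ} (hp : p.Prime) (hp2 : p ≠ 2) (hq : q.Prime) (hq2 : q ≠ 2) (hpq : p ≠ q)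
    (hqA : (q : K) ∈ A.nonunits) (P : G) (hP : P ≠ 0) (hpP : p • P = 0) : ξ P ∈ A := by
  have hp1 : 1 < p := hp.one_lt
  obtain ⟨n₀, hn₀, hmax⟩ := Finset.exists_max_image (Finset.Icc 1 (p - 1))
    (fun n => A.valuation (ξ (n • P))) ⟨1, by rw [Finset.mem_Icc]; omega⟩
  rw [Finset.mem_Icc] at hn₀
  have hP' : n₀ • P ≠ 0 :=
    int_nsmul_ne_zero hp hP hpP (Nat.not_dvd_of_pos_of_lt (by omega) (by omega))
  have hpP' : p • n₀ • P = 0 := by rw [smul_comm, hpP, smul_zero]
  have hmul : ∀ n : ℕ, 1 ≤ n → n < p →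
      A.valuation (ξ (n • n₀ • P)) ≤ A.valuation (ξ (n₀ • P)) := by
    intro n h1 h2
    have e : n • n₀ • P = ((n * n₀) % p) • P := by
      rw [smul_smul]
      conv_lhs => rw [← Nat.div_add_mod (n * n₀) p]
      rw [add_smul, mul_comm p, mul_smul, hpP, smul_zero, zero_add]
    rw [e]
    apply hmax
    rw [Finset.mem_Icc]
    have h3 : (n * n₀) % p ≠ 0 := by
      intro h0
      rcases (Nat.Prime.dvd_mul hp).mp (Nat.dvd_of_mod_eq_zero h0) with h4 | h4
      · exact Nat.not_dvd_of_pos_of_lt (by omega) h2 h4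
      · exact Nat.not_dvd_of_pos_of_lt (by omega) (by omega) h4
    have h5 := Nat.mod_lt (n * n₀) hp.pos
    omega
  have hint := int_core A h ha hb hp hp2 hq hq2 hpq hqA (n₀ • P) hP' hpP' hmul
  rw [← A.valuation_le_one_iff] at hint ⊢
  have h6 := hmax 1 (by rw [Finset.mem_Icc]; omega)
  simp only [one_smul] at h6
  exact h6.trans hint

end Fermat.Agent.S05
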