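import Fermat.Agent.S05.Defs

/-!
# S05 (C): the walk on the Néron polygon
-/

set_option autoImplicit false
set_option linter.unusedSectionVars false

namespace Fermat.Agent.S05

section trop

variable {Γ : Type*} [AddCommGroup Γ] [LinearOrder Γ] [IsOrderedAddMonoid Γ]

/-- the point at position `s` on the circle of length `2m` has height `r` -/
def Tent (m s r : Γ) : Prop := (s < m ∧ r = s) ∨ (m < s ∧ r = m + m - s)

lemma trop_dbl {c m u e : Γ} (hE : c + c + u = e + e)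
    (he1 : c + c < m → e = c + c) (he2 : m < c + c → e = m) (he3 : c + c = m → m ≤ e)
    (hum : u < m) : Tent m (c + c) u := by
  rcases lt_trichotomy (c + c) m with h | h | h
  · have he := he1 h
    exact Or.inl ⟨h, by linear_combination (norm := abel) hE + 2 • he⟩
  · have he := he3 h
    exfalso
    have : (0 : Γ) < 0 := by
      linear_combination (norm := (abel_nf; exact le_rfl)) hum + 2 • he - hE + h
    exact lt_irrefl _ this
  · have he := he2 h
    exact Or.inr ⟨h, by linear_combination (norm := abel) hE + 2 • he⟩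

lemma trop_step {c m s r w u d e : Γ} (hc : 0 < c)
    (hE : d + d + (u + w) = e + e)
    (hd : c ≤ d) (hd' : c < r → d = c)
    (he1 : r + c < m → e = r + c) (he2 : m < r + c → e = m) (he3 : r + c = m → m ≤ e)
    (hu : c ≤ u) (hum : u < m) (hr : c ≤ r)
    (h2c : c + c ≠ m) (hs : c ≤ s - c)
    (hw : Tent m (s - c) w) (hx : Tent m s r) : Tent m (s + c) u := by
  rcases hw with ⟨hw1, hw2⟩ | ⟨hw1, hw2⟩ <;> rcases hx with ⟨hx1, hx2⟩ | ⟨hx1, hx2⟩
  · -- ascending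
    have hcr : c < r := by linear_combination (norm := (abel_nf; exact le_rfl)) hc + hs - hx2
    have hdc := hd' hcr
    rcases lt_trichotomy (s + c) m with h | h | h
    · have he := he1 (by rw [hx2]; exact h)
      exact Or.inl ⟨h, by
        linear_combination (norm := abel) hE - 2 • hdc - hw2 + 2 • he + 2 • hx2⟩
    · have he := he3 (by rw [hx2]; exact h)
      exfalso
      have : (0 : Γ) < 0 := by
        linear_combination (norm := (abel_nf; exact le_rfl))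
          hum + 2 • he - hE + 2 • hdc + hw2 + h
      exact lt_irrefl _ this
    · have he := he2 (by rw [hx2]; exact h)
      exact Or.inr ⟨h, by linear_combination (norm := abel) hE - 2 • hdc - hw2 + 2 • he⟩
  · -- passing the top
    have hcr : c < r := by
      by_contra hn
      have hrc : r = c := le_antisymm (not_lt.mp hn) hr
      have he : e ≤ m := by
        rcases lt_trichotomy (r + c) m with h | h | h
        · rw [he1 h]; exact h.le
        · rw [hrc] at h; exact absurd h h2c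
        · exact (he2 h).le
      have : (0 : Γ) < 0 := by
        linear_combination (norm := (abel_nf; exact le_rfl))
          hc + 2 • hd + hu + hE + 2 • he - hw2 - hx2 + hrc
      exact lt_irrefl _ this
    have hdc := hd' hcr
    have he := he2 (by linear_combination (norm := (abel_nf; exact le_rfl)) hw1 - hx2)
    exact Or.inr ⟨by linear_combination (norm := (abel_nf; exact le_rfl)) hx1 + hc, by
      linear_combination (norm := abel) hE - 2 • hdc - hw2 + 2 • he⟩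
  · exfalso
    have : (0 : Γ) < 0 := by
      linear_combination (norm := (abel_nf; exact le_rfl)) hw1 + hx1 + hc
    exact lt_irrefl _ this
  · -- descending
    have hcr : c < r := by
      by_contra hn
      have hrc : r = c := le_antisymm (not_lt.mp hn) hr
      have he : e ≤ r + c := by
        rcases lt_trichotomy (r + c) m with h | h | h
        · exact (he1 h).le
        · rw [hrc] at h; exact absurd h h2c
        · rw [he2 h]; exact h.le
      have : (0 : Γ) < 0 := by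
        linear_combination (norm := (abel_nf; exact le_rfl))
          hc + 2 • hd + hu + hE + 2 • he - hw2 + hx2 + hrc
      exact lt_irrefl _ this
    have hdc := hd' hcr
    have he := he1 (by linear_combination (norm := (abel_nf; exact le_rfl)) hw1 + hx2)
    exact Or.inr ⟨by linear_combination (norm := (abel_nf; exact le_rfl)) hx1 + hc, by
      linear_combination (norm := abel) hE - 2 • hdc - hw2 + 2 • he + 2 • hx2⟩

end trop

section ord

variable {Γ : Type*} [AddCommGroup Γ] [LinearOrder Γ] [IsOrderedAddMonoid Γ]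
variable {K : Type*} [Field K]

/-- an additive valuation (junk value at `0`) -/
structure IsOrd (o : K → Γ) : Prop where
  mul : ∀ x y, x ≠ 0 → y ≠ 0 → o (x * y) = o x + o y
  neg : ∀ x, o (-x) = o x
  add : ∀ x y, x ≠ 0 → y ≠ 0 → x + y ≠ 0 → min (o x) (o y) ≤ o (x + y)

namespace IsOrd

variable {o : K → Γ} (ho : IsOrd o)
include ho

lemma one : o (1 : K) = 0 := by
  have := ho.mul 1 1 one_ne_zero one_ne_zero
  rw [mul_one] at this
  exact left_eq_add.mp this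

lemma pow {x : K} (hx : x ≠ 0) (n : ℕ) : o (x ^ n) = n • o x := by
  induction n with
  | zero => rw [pow_zero, zero_nsmul, ho.one]
  | succ n ih => rw [pow_succ, ho.mul _ _ (pow_ne_zero n hx) hx, ih, succ_nsmul]

lemma sq {x : K} (hx : x ≠ 0) : o (x ^ 2) = o x + o x := by
  rw [pow_two, ho.mul x x hx hx]

lemma ge_add {g : Γ} {x y : K} (hx : x ≠ 0 → g ≤ o x) (hy : y ≠ 0 → g ≤ o y) (hxy : x + y ≠ 0) :
    g ≤ o (x + y) := by
  by_cases hx0 : x = 0
  · rw [hx0, zero_add] at hxy ⊢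
    exact hy hxy
  by_cases hy0 : y = 0
  · rw [hy0, add_zero]
    exact hx hx0
  exact (le_min (hx hx0) (hy hy0)).trans (ho.add x y hx0 hy0 hxy)

lemma gt_add {g : Γ} {x y : K} (hx : x ≠ 0 → g < o x) (hy : y ≠ 0 → g < o y) (hxy : x + y ≠ 0) :
    g < o (x + y) := by
  by_cases hx0 : x = 0
  · rw [hx0, zero_add] at hxy ⊢
    exact hy hxy
  by_cases hy0 : y = 0
  · rw [hy0, add_zero]
    exact hx hx0
  exact (lt_min (hx hx0) (hy hy0)).trans_le (ho.add x y hx0 hy0 hxy)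

/-- the dominant term -/
lemma dom {x y : K} (hx : x ≠ 0) (hy : y ≠ 0 → o x < o y) : x + y ≠ 0 ∧ o (x + y) = o x := by
  by_cases hy0 : y = 0
  · rw [hy0, add_zero]
    exact ⟨hx, rfl⟩
  have hlt := hy hy0
  have hne : x + y ≠ 0 := by
    intro h
    have : y = -x := by linear_combination h
    rw [this, ho.neg] at hlt
    exact lt_irrefl _ hlt
  refine ⟨hne, le_antisymm ?_ ?_⟩
  · by_contra hcon
    rw [not_le] at hcon
    have h1 := ho.add (x + y) (-y) hne (neg_ne_zero.mpr hy0) (by simpa using hx)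
    rw [ho.neg, add_neg_cancel_right] at h1
    exact lt_irrefl _ ((lt_min hcon hlt).trans_le h1)
  · have h1 := ho.add x y hx hy0 hne
    rwa [min_eq_left hlt.le] at h1

lemma sub_lt {z b : K} (hz : z ≠ 0) (h : o z < o b) : z - b ≠ 0 ∧ o (z - b) = o z := by
  rw [sub_eq_add_neg]
  exact ho.dom hz fun _ => by rw [ho.neg]; exact h

lemma sub_gt {z b : K} (hb : b ≠ 0) (h : z ≠ 0 → o b < o z) : z - b ≠ 0 ∧ o (z - b) = o b := by
  have := ho.dom (x := -b) (y := z) (neg_ne_zero.mpr hb) (by rw [ho.neg]; exact h)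
  rw [ho.neg, neg_add_eq_sub] at this
  exact this

lemma sub_ge {g : Γ} {z b : K} (hz : z ≠ 0 → g ≤ o z) (hb : b ≠ 0 → g ≤ o b) (h : z - b ≠ 0) :
    g ≤ o (z - b) := by
  rw [sub_eq_add_neg] at h ⊢
  exact ho.ge_add hz (fun h' => by rw [ho.neg]; exact hb (neg_ne_zero.mp h')) h

end IsOrd

end ord

section kl

variable {Γ : Type*} [AddCommGroup Γ] [LinearOrder Γ] [IsOrderedAddMonoid Γ]
variable {G K : Type*} [AddCommGroup G] [Field K] {ξ η : G → K} {a b : K} {o : K → Γ}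

lemma xi_ne_zero (h : KLine ξ η a b) (hb0 : b ≠ 0) {Q : G} (hQ : Q ≠ 0) (hQ2 : Q + Q ≠ 0) :
    ξ Q ≠ 0 := by
  intro h0
  have h1 := h.dbl Q hQ hQ2
  rw [h0] at h1
  have h2 : b ^ 2 = 0 := by linear_combination -h1
  exact hb0 (pow_eq_zero_iff two_ne_zero |>.mp h2)

/-- the duplication formula in terms of orders -/
lemma dbl_ord (ho : IsOrd o) (h : KLine ξ η a b) (h20 : (2 : K) ≠ 0) (ho2 : o (2 : K) = 0)
    {Q : G} (hQ : Q ≠ 0) (hQ2 : Q + Q ≠ 0) (hx : ξ Q ≠ 0) (hu : ξ (Q + Q) ≠ 0)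
    (hor : ξ Q ^ 2 + a * ξ Q + b ≠ 0 ∨ ξ Q ^ 2 - b ≠ 0) :
    ξ Q ^ 2 + a * ξ Q + b ≠ 0 ∧ ξ Q ^ 2 - b ≠ 0 ∧
      o (ξ Q) + o (ξ Q ^ 2 + a * ξ Q + b) + o (ξ (Q + Q)) = o (ξ Q ^ 2 - b) + o (ξ Q ^ 2 - b) := by
  have hd := h.dbl Q hQ hQ2
  have h4 : (4 : K) = 2 * 2 := by norm_num
  have h40 : (4 : K) ≠ 0 := by rw [h4]; exact mul_ne_zero h20 h20
  have ho4 : o (4 : K) = 0 := by rw [h4, ho.mul _ _ h20 h20, ho2, add_zero]
  have hq : ξ Q ^ 2 + a * ξ Q + b ≠ 0 := by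
    rcases hor with h1 | h1
    · exact h1
    · intro h0
      rw [h0, mul_zero, mul_zero, zero_mul] at hd
      exact h1 (pow_eq_zero_iff two_ne_zero |>.mp hd.symm)
  have hz : ξ Q ^ 2 - b ≠ 0 := by
    intro h0
    rw [h0] at hd
    have : 4 * (ξ Q * (ξ Q ^ 2 + a * ξ Q + b)) * ξ (Q + Q) ≠ 0 :=
      mul_ne_zero (mul_ne_zero h40 (mul_ne_zero hx hq)) hu
    exact this (by rw [hd]; ring)
  refine ⟨hq, hz, ?_⟩
  have h1 := congrArg o hd
  rw [ho.sq hz, ho.mul _ _ (mul_ne_zero h40 (mul_ne_zero hx hq)) hu,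
    ho.mul _ _ h40 (mul_ne_zero hx hq), ho.mul _ _ hx hq, ho4, zero_add] at h1
  exact h1

/-- step (2): all orders are `< ord b` -/
lemma ord_lt (ho : IsOrd o) (h : KLine ξ η a b) (ha0 : a ≠ 0) (hoa : o a = 0) (hb0 : b ≠ 0)
    (hm : 0 < o b) (h20 : (2 : K) ≠ 0) (ho2 : o (2 : K) = 0)
    {Q : G} (hQ : Q ≠ 0) (hQ2 : Q + Q ≠ 0) (hx : ξ Q ≠ 0) (hu : ξ (Q + Q) ≠ 0)
    (hupos : 0 < o (ξ (Q + Q))) : o (ξ Q) < o b := by
  by_contra hcon
  rw [not_lt] at hcon
  have h1 : ξ Q ^ 2 - b ≠ 0 ∧ o (ξ Q ^ 2 - b) = o b := ho.sub_gt hb0 fun _ => by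
    rw [ho.sq hx]
    linear_combination (norm := (abel_nf; exact le_rfl)) hm + hcon + hcon
  obtain ⟨hq, -, hE⟩ := dbl_ord ho h h20 ho2 hQ hQ2 hx hu (Or.inr h1.1)
  have hq' : o b ≤ o (ξ Q ^ 2 + a * ξ Q + b) := by
    refine ho.ge_add (fun hne => ho.ge_add (fun _ => ?_) (fun _ => ?_) hne) (fun _ => le_rfl) hq
    · rw [ho.sq hx]
      linear_combination (norm := (abel_nf; exact le_rfl)) hm + hcon + hcon
    · rw [ho.mul _ _ ha0 hx, hoa, zero_add]
      exact hcon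
  rw [h1.2] at hE
  have : (0 : Γ) < 0 := by
    linear_combination (norm := (abel_nf; exact le_rfl)) hupos + hcon + hq' + hE
  exact lt_irrefl _ this

lemma walk_base (ho : IsOrd o) (h : KLine ξ η a b) (ha0 : a ≠ 0) (hoa : o a = 0) (hb0 : b ≠ 0)
    (h20 : (2 : K) ≠ 0) (ho2 : o (2 : K) = 0)
    {P : G} (hP : P ≠ 0) (hP2 : P + P ≠ 0) (hy : ξ P ≠ 0) (hu : ξ (P + P) ≠ 0)
    (hc : 0 < o (ξ P)) (hcm : o (ξ P) < o b) (hum : o (ξ (P + P)) < o b) :
    Tent (o b) (o (ξ P) + o (ξ P)) (o (ξ (P + P))) := by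
  have hax : o (a * ξ P) = o (ξ P) := by rw [ho.mul _ _ ha0 hy, hoa, zero_add]
  have h1 : a * ξ P + (ξ P ^ 2 + b) ≠ 0 ∧ o (a * ξ P + (ξ P ^ 2 + b)) = o (a * ξ P) := by
    refine ho.dom (mul_ne_zero ha0 hy) fun hne => ?_
    rw [hax]
    refine ho.gt_add (fun _ => ?_) (fun _ => hcm) hne
    rw [ho.sq hy]
    linear_combination (norm := (abel_nf; exact le_rfl)) hc
  have e1 : a * ξ P + (ξ P ^ 2 + b) = ξ P ^ 2 + a * ξ P + b := by ring
  rw [e1, hax] at h1
  obtain ⟨-, hz, hE⟩ := dbl_ord ho h h20 ho2 hP hP2 hy hu (Or.inl h1.1)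
  rw [h1.2] at hE
  have hsq : o (ξ P ^ 2) = o (ξ P) + o (ξ P) := ho.sq hy
  have hsq0 : ξ P ^ 2 ≠ 0 := pow_ne_zero 2 hy
  refine trop_dbl hE (fun hlt => ?_) (fun hlt => ?_) (fun heq => ?_) hum
  · rw [← hsq]
    exact (ho.sub_lt hsq0 (by rw [hsq]; exact hlt)).2
  · exact (ho.sub_gt hb0 (fun _ => by rw [hsq]; exact hlt)).2
  · exact ho.sub_ge (fun _ => by rw [hsq, heq]) (fun _ => le_rfl) hz

lemma walk_step (ho : IsOrd o) (h : KLine ξ η a b) (hb0 : b ≠ 0) {P R : G} (hP : P ≠ 0)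
    (hR : R ≠ 0) (hs : R + P ≠ 0) (hd : R - P ≠ 0)
    (hx : ξ R ≠ 0) (hy : ξ P ≠ 0) (hu : ξ (R + P) ≠ 0) (hw : ξ (R - P) ≠ 0)
    (hc : 0 < o (ξ P)) (hcx : o (ξ P) ≤ o (ξ R)) (hcu : o (ξ P) ≤ o (ξ (R + P)))
    (hum : o (ξ (R + P)) < o b) (h2c : o (ξ P) + o (ξ P) ≠ o b) {s : Γ}
    (hs' : o (ξ P) ≤ s - o (ξ P))
    (hTw : Tent (o b) (s - o (ξ P)) (o (ξ (R - P)))) (hTx : Tent (o b) s (o (ξ R))) :
    Tent (o b) (s + o (ξ P)) (o (ξ (R + P))) := by
  have hpr := h.prod R P hR hP hs hd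
  have ht : ξ R - ξ P ≠ 0 := by
    intro h0
    rcases h.inj R P hR hP (sub_eq_zero.mp h0) with h1 | h1
    · exact hd (by rw [h1, sub_self])
    · exact hs (by rw [h1, neg_add_cancel])
  have hz : ξ R * ξ P - b ≠ 0 := by
    intro h0
    rw [h0] at hpr
    have : (ξ R - ξ P) ^ 2 * (ξ (R + P) * ξ (R - P)) ≠ 0 :=
      mul_ne_zero (pow_ne_zero 2 ht) (mul_ne_zero hu hw)
    exact this (by rw [hpr]; ring)
  have hE := congrArg o hpr
  rw [ho.sq hz, ho.mul _ _ (pow_ne_zero 2 ht) (mul_ne_zero hu hw), ho.sq ht, ho.mul _ _ hu hw] at hE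
  have hxy : o (ξ R * ξ P) = o (ξ R) + o (ξ P) := ho.mul _ _ hx hy
  have hxy0 : ξ R * ξ P ≠ 0 := mul_ne_zero hx hy
  refine trop_step hc hE (ho.sub_ge (fun _ => hcx) (fun _ => le_rfl) ht)
    (fun hlt => (ho.sub_gt hy fun _ => hlt).2) (fun hlt => ?_) (fun hlt => ?_) (fun heq => ?_)
    hcu hum hcx h2c hs' hTw hTx
  · rw [← hxy]
    exact (ho.sub_lt hxy0 (by rw [hxy]; exact hlt)).2
  · exact (ho.sub_gt hb0 (fun _ => by rw [hxy]; exact hlt)).2
  · exact ho.sub_ge (fun _ => by rw [hxy, heq]) (fun _ => le_rfl) hz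

theorem walk_aux (ho : IsOrd o) (h : KLine ξ η a b) (ha0 : a ≠ 0) (hoa : o a = 0) (hb0 : b ≠ 0)
    (hm : 0 < o b) (h20 : (2 : K) ≠ 0) (ho2 : o (2 : K) = 0) {p : ℕ} (hp : p.Prime) (hp2 : p ≠ 2)
    (P : G) (hP : P ≠ 0) (hpP : p • P = 0) (hpos : 0 < o (ξ P))
    (hmin : ∀ k : ℕ, k • P ≠ 0 → o (ξ P) ≤ o (ξ (k • P))) :
    p • o (ξ P) = o b + o b ∧ o (ξ P) < o b := by
  have : Fact p.Prime := ⟨hp⟩
  have hord : addOrderOf P = p := addOrderOf_eq_prime hpP hP
  have hnz : ∀ k : ℕ, ¬ p ∣ k → k • P ≠ 0 := fun k hk h0 =>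
    hk (hord ▸ addOrderOf_dvd_of_nsmul_eq_zero h0)
  have hp3 : 3 ≤ p := by have := hp.two_le; omega
  have hnd2 : ∀ k : ℕ, ¬ p ∣ k → ¬ p ∣ k + k := by
    intro k hk hd
    rw [← two_mul] at hd
    rcases (Nat.Prime.dvd_mul hp).mp hd with h1 | h1
    · have := Nat.le_of_dvd (by norm_num) h1
      omega
    · exact hk h1
  have e2 : ∀ k : ℕ, k • P + k • P = (k + k) • P := fun k => (add_nsmul P k k).symm
  have hx0 : ∀ k : ℕ, ¬ p ∣ k → ξ (k • P) ≠ 0 := fun k hk =>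
    xi_ne_zero h hb0 (hnz k hk) (by rw [e2]; exact hnz _ (hnd2 k hk))
  have hrpos : ∀ k : ℕ, ¬ p ∣ k → 0 < o (ξ (k • P)) := fun k hk =>
    hpos.trans_le (hmin k (hnz k hk))
  have hrlt : ∀ k : ℕ, ¬ p ∣ k → o (ξ (k • P)) < o b := fun k hk =>
    ord_lt ho h ha0 hoa hb0 hm h20 ho2 (hnz k hk) (by rw [e2]; exact hnz _ (hnd2 k hk))
      (hx0 k hk) (by rw [e2]; exact hx0 _ (hnd2 k hk)) (by rw [e2]; exact hrpos _ (hnd2 k hk))
  have hnd : ∀ k : ℕ, 0 < k → k < p → ¬ p ∣ k := fun k h0 h1 => Nat.not_dvd_of_pos_of_lt h0 h1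
  have h1P : (1 : ℕ) • P = P := one_nsmul P
  have hcm : o (ξ P) < o b := by
    have := hrlt 1 (hnd 1 one_pos (by omega))
    rwa [h1P] at this
  have hT2 : Tent (o b) (o (ξ P) + o (ξ P)) (o (ξ (P + P))) := by
    have e : P + P = (1 + 1) • P := by rw [← e2, h1P]
    have hn2 := hnd (1 + 1) (by omega) (by omega)
    exact walk_base ho h ha0 hoa hb0 h20 ho2 hP (by rw [e]; exact hnz _ hn2)
      (by have := hx0 1 (hnd 1 one_pos (by omega)); rwa [h1P] at this)
      (by rw [e]; exact hx0 _ hn2) hpos hcm (by rw [e]; exact hrlt _ hn2)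
  have h2c : o (ξ P) + o (ξ P) ≠ o b := by
    rcases hT2 with h' | h'
    · exact h'.1.ne
    · exact h'.1.ne'
  have key : ∀ k : ℕ, k + 3 ≤ p → Tent (o b) ((k + 1) • o (ξ P)) (o (ξ ((k + 1) • P))) ∧
      Tent (o b) ((k + 2) • o (ξ P)) (o (ξ ((k + 2) • P))) := by
    intro k
    induction k with
    | zero =>
      intro _
      refine ⟨Or.inl ?_, ?_⟩
      · rw [zero_add, one_nsmul, one_nsmul]
        exact ⟨hcm, rfl⟩
      · rw [zero_add, two_nsmul, two_nsmul]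
        exact hT2
    | succ k ih =>
      intro hk
      obtain ⟨h1, h2⟩ := ih (by omega)
      refine ⟨h2, ?_⟩
      have eP : (k + 1 + 2) • P = (k + 2) • P + P := succ_nsmul P (k + 2)
      have eM : (k + 1) • P = (k + 2) • P - P := by
        rw [succ_nsmul P (k + 1), add_sub_cancel_right]
      have eP' : (k + 1 + 2) • o (ξ P) = (k + 2) • o (ξ P) + o (ξ P) := succ_nsmul _ (k + 2)
      have eM' : (k + 1) • o (ξ P) = (k + 2) • o (ξ P) - o (ξ P) := by
        rw [succ_nsmul _ (k + 1), add_sub_cancel_right]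
      have n1 := hnd (k + 1) (by omega) (by omega)
      have n2 := hnd (k + 2) (by omega) (by omega)
      have n3 := hnd (k + 1 + 2) (by omega) (by omega)
      rw [eM, eM'] at h1
      rw [eP, eP']
      refine walk_step ho h hb0 hP (hnz _ n2) (by rw [← eP]; exact hnz _ n3)
        (by rw [← eM]; exact hnz _ n1) (hx0 _ n2)
        (by have := hx0 1 (hnd 1 one_pos (by omega)); rwa [h1P] at this)
        (by rw [← eP]; exact hx0 _ n3) (by rw [← eM]; exact hx0 _ n1) hpos (hmin _ (hnz _ n2))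
        (by rw [← eP]; exact hmin _ (hnz _ n3)) (by rw [← eP]; exact hrlt _ n3) h2c ?_ h1 h2
      rw [← eM', succ_nsmul]
      exact le_add_of_nonneg_left (nsmul_nonneg hpos.le k)
  refine ⟨?_, hcm⟩
  obtain ⟨q, rfl⟩ : ∃ q, p = q + 3 := ⟨p - 3, by omega⟩
  have hfin := (key q le_rfl).2
  have eneg : (q + 2) • P = -P := by
    rw [eq_neg_iff_add_eq_zero, ← succ_nsmul]
    exact hpP
  rw [eneg, h.neg] at hfin
  rcases hfin with ⟨-, h2⟩ | ⟨-, h2⟩
  · exfalso
    rw [succ_nsmul] at h2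
    have h3 : (q + 1) • o (ξ P) = 0 := by
      linear_combination (norm := abel) -h2
    exact (nsmul_pos hpos (by omega)).ne' h3
  · rw [succ_nsmul]
    linear_combination (norm := abel) h2

end kl

section final

variable {G K : Type*} [AddCommGroup G] [Field K] {ξ η : G → K} {a b : K}

open Classical in
/-- the additive valuation attached to a valuation subring -/
noncomputable def ordA (A : ValuationSubring K) (x : K) : Additive (A.ValueGroup)ˣ :=
  if h : x = 0 then 0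
  else Additive.ofMul (Units.mk0 (A.valuation x) ((A.valuation).ne_zero_iff.mpr h))⁻¹

lemma ordA_le_iff (A : ValuationSubring K) {x y : K} (hx : x ≠ 0) (hy : y ≠ 0) :
    ordA A x ≤ ordA A y ↔ A.valuation y ≤ A.valuation x := by
  rw [ordA, ordA, dif_neg hx, dif_neg hy, Additive.ofMul_le, inv_le_inv_iff, ← Units.val_le_val]
  rfl

lemma ordA_lt_iff (A : ValuationSubring K) {x y : K} (hx : x ≠ 0) (hy : y ≠ 0) :
    ordA A x < ordA A y ↔ A.valuation y < A.valuation x := by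
  rw [← not_le, ← not_le, ordA_le_iff A hy hx]

lemma ordA_eq_iff (A : ValuationSubring K) {x y : K} (hx : x ≠ 0) (hy : y ≠ 0) :
    ordA A x = ordA A y ↔ A.valuation x = A.valuation y := by
  rw [le_antisymm_iff, le_antisymm_iff, ordA_le_iff A hx hy, ordA_le_iff A hy hx, and_comm]

lemma isOrd_ordA (A : ValuationSubring K) : IsOrd (ordA A) where
  mul x y hx hy := by
    rw [ordA, ordA, ordA, dif_neg hx, dif_neg hy, dif_neg (mul_ne_zero hx hy), ← ofMul_mul,
      ← mul_inv]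
    congr 2
    ext
    simp
  neg x := by
    by_cases hx : x = 0
    · rw [hx, neg_zero]
    · rw [ordA_eq_iff A (neg_ne_zero.mpr hx) hx, Valuation.map_neg]
  add x y hx hy hxy := by
    rcases le_total (ordA A x) (ordA A y) with h | h
    · rw [min_eq_left h, ordA_le_iff A hx hxy]
      rw [ordA_le_iff A hx hy] at h
      exact (A.valuation.map_add x y).trans (max_le le_rfl h)
    · rw [min_eq_right h, ordA_le_iff A hy hxy]
      rw [ordA_le_iff A hy hx] at h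
      exact (A.valuation.map_add x y).trans (max_le h le_rfl)

lemma ordA_eq_zero (A : ValuationSubring K) {x : K} (h : A.valuation x = 1) :
    x ≠ 0 ∧ ordA A x = 0 := by
  have hx : x ≠ 0 := by
    intro h0
    rw [h0, map_zero] at h
    exact zero_ne_one h
  refine ⟨hx, ?_⟩
  rw [← (isOrd_ordA A).one, ordA_eq_iff A hx one_ne_zero, h, map_one]

lemma ordA_pos (A : ValuationSubring K) {x : K} (hx : x ≠ 0) (h : A.valuation x < 1) :
    0 < ordA A x := by
  rw [← (isOrd_ordA A).one, ordA_lt_iff A one_ne_zero hx, map_one]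
  exact h

theorem walk (A : ValuationSubring K) (h : KLine ξ η a b) (ha : A.valuation a = 1)
    (hb : A.valuation b < 1) (hb0 : b ≠ 0) (h2 : A.valuation 2 = 1)
    {p : ℕ} (hp : p.Prime) (hp2 : p ≠ 2)
    (hint : ∀ Q : G, Q ≠ 0 → p • Q = 0 → ξ Q ∈ A) (P : G) (hP : P ≠ 0) (hpP : p • P = 0) :
    ∃ (P₀ : G) (k : ℕ), P = k • P₀ ∧ P₀ ≠ 0 ∧ p • P₀ = 0 ∧
      (A.valuation (ξ P₀) = 1 ∨
        (A.valuation (ξ P₀) ^ p = A.valuation b ^ 2 ∧ A.valuation b < A.valuation (ξ P₀) ∧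
          A.valuation (ξ P₀) < 1)) := by
  have : Fact p.Prime := ⟨hp⟩
  have hord : addOrderOf P = p := addOrderOf_eq_prime hpP hP
  have hp3 : 3 ≤ p := by have := hp.two_le; omega
  have hne : (Finset.Icc 1 (p - 1)).Nonempty := ⟨1, Finset.mem_Icc.mpr ⟨le_rfl, by omega⟩⟩
  obtain ⟨k₀, hk₀, hmin₀⟩ := Finset.exists_min_image (Finset.Icc 1 (p - 1))
    (fun k => ordA A (ξ (k • P))) hne
  rw [Finset.mem_Icc] at hk₀
  have hnd₀ : ¬ p ∣ k₀ := Nat.not_dvd_of_pos_of_lt (by omega) (by omega)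
  have hP₀ : k₀ • P ≠ 0 := fun h0 => hnd₀ (hord ▸ addOrderOf_dvd_of_nsmul_eq_zero h0)
  have hpP₀ : p • k₀ • P = 0 := by rw [smul_comm, hpP, smul_zero]
  have hord₀ : addOrderOf (k₀ • P) = p := addOrderOf_eq_prime hpP₀ hP₀
  obtain ⟨k, -, hk⟩ := Nat.exists_mul_mod_eq_one_of_coprime
    ((Nat.Prime.coprime_iff_not_dvd hp).mpr hnd₀).symm hp.one_lt
  have hPk : P = k • k₀ • P := by
    rw [← mul_nsmul', mul_comm, ← mod_addOrderOf_nsmul, hord, hk, one_nsmul]
  refine ⟨k₀ • P, k, hPk, hP₀, hpP₀, ?_⟩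
  have hle : A.valuation (ξ (k₀ • P)) ≤ 1 := (A.valuation_le_one_iff _).mpr (hint _ hP₀ hpP₀)
  rcases hle.eq_or_lt with heq | hlt
  · exact Or.inl heq
  right
  have hP₀2 : k₀ • P + k₀ • P ≠ 0 := by
    rw [← two_nsmul]
    intro h0
    have h1 := addOrderOf_dvd_of_nsmul_eq_zero h0
    rw [hord₀] at h1
    have := Nat.le_of_dvd (by norm_num) h1
    omega
  have hx0 : ξ (k₀ • P) ≠ 0 := xi_ne_zero h hb0 hP₀ hP₀2
  obtain ⟨ha0, hoa⟩ := ordA_eq_zero A ha
  obtain ⟨h20, ho2⟩ := ordA_eq_zero A h2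
  have hmin : ∀ j : ℕ, j • k₀ • P ≠ 0 → ordA A (ξ (k₀ • P)) ≤ ordA A (ξ (j • k₀ • P)) := by
    intro j hj
    have e : j • k₀ • P = ((k₀ * j) % p) • P := by
      rw [← mul_nsmul', ← hord, mod_addOrderOf_nsmul, mul_comm]
    rw [e] at hj ⊢
    apply hmin₀
    rw [Finset.mem_Icc]
    have h1 : (k₀ * j) % p < p := Nat.mod_lt _ hp.pos
    have h2 : (k₀ * j) % p ≠ 0 := by
      intro h0
      rw [h0, zero_nsmul] at hj
      exact hj rfl
    omega
  obtain ⟨h1, h3⟩ := walk_aux (isOrd_ordA A) h ha0 hoa hb0 (ordA_pos A hb0 hb) h20 ho2 hp hp2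
    (k₀ • P) hP₀ hpP₀ (ordA_pos A hx0 hlt) hmin
  refine ⟨?_, (ordA_lt_iff A hx0 hb0).mp h3, hlt⟩
  rw [← (isOrd_ordA A).pow hx0, ← (isOrd_ordA A).sq hb0,
    ordA_eq_iff A (pow_ne_zero _ hx0) (pow_ne_zero _ hb0), map_pow, map_pow] at h1
  exact h1

end final

end Fermat.Agent.S05
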