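import Fermat.Agent.S05.Defs
import Fermat.Agent.S05.Integral
import Fermat.Agent.S05.Walk
import Fermat.Agent.S05.Eta
import Fermat.Agent.S05.Inertia

/-!
# S05 (F1): inertia fixes the `p`-torsion of a Kummer line with good or multiplicative reduction
-/

set_option autoImplicit false

namespace Fermat.Agent.S05

variable {G K : Type*} [AddCommGroup G] [Field K] {ξ η : G → K} {a b : K}

/-- integers are integral -/
lemma core_int_mem (A : ValuationSubring K) (n : ℤ) : (n : K) ∈ A := by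
  have : (n : K) = ((n : A) : K) := by push_cast; rfl
  rw [this]
  exact Subtype.mem _

lemma core_val_int_le (A : ValuationSubring K) (n : ℤ) : A.valuation (n : K) ≤ 1 :=
  (A.valuation_le_one_iff _).2 (core_int_mem A n)

/-- integers divisible by `q` are non-units -/
lemma core_val_int_lt (A : ValuationSubring K) {q : ℕ} (hqA : (q : K) ∈ A.nonunits) {n : ℤ}
    (h : (q : ℤ) ∣ n) : A.valuation (n : K) < 1 := by
  obtain ⟨m, rfl⟩ := h
  have h1 := (A.mem_nonunits_iff).1 hqA
  push_cast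
  rw [map_mul]
  calc A.valuation (q : K) * A.valuation (m : K) ≤ A.valuation (q : K) * 1 := by
        gcongr
        exact core_val_int_le A m
    _ < 1 := by rw [mul_one]; exact h1

/-- integers prime to `q` are units -/
lemma core_val_int_eq (A : ValuationSubring K) {q : ℕ} (hq : q.Prime) (hqA : (q : K) ∈ A.nonunits)
    {n : ℤ} (h : ¬ (q : ℤ) ∣ n) : A.valuation (n : K) = 1 := by
  apply le_antisymm (core_val_int_le A n)
  by_contra hcon
  push Not at hcon
  have hcop : IsCoprime (q : ℤ) n := (Nat.prime_iff_prime_int.1 hq).coprime_iff_not_dvd.2 h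
  obtain ⟨u, w, huw⟩ := hcop
  have h1 : (u : K) * q + w * n = 1 := by exact_mod_cast congrArg (Int.cast : ℤ → K) huw
  have h2 : A.valuation ((u : K) * q + w * n) < 1 := by
    apply Valuation.map_add_lt
    · rw [map_mul]
      calc A.valuation (u : K) * A.valuation (q : K) ≤ 1 * A.valuation (q : K) := by
            gcongr
            exact core_val_int_le A u
        _ < 1 := by rw [one_mul]; exact (A.mem_nonunits_iff).1 hqA
    · rw [map_mul]
      calc A.valuation (w : K) * A.valuation (n : K) ≤ 1 * A.valuation (n : K) := by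
            gcongr
            exact core_val_int_le A w
        _ < 1 := by rw [one_mul]; exact hcon
  rw [h1, map_one] at h2
  exact lt_irrefl _ h2

lemma core_val_two (A : ValuationSubring K) {q : ℕ} (hq : q.Prime) (hq2 : q ≠ 2)
    (hqA : (q : K) ∈ A.nonunits) : A.valuation (2 : K) = 1 := by
  have h : ¬ (q : ℤ) ∣ (2 : ℤ) := by
    intro h
    have h1 : q ∣ 2 := by exact_mod_cast h
    exact hq2 ((Nat.prime_dvd_prime_iff_eq hq Nat.prime_two).1 h1)
  have := core_val_int_eq A hq hqA h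
  simpa using this

section

variable (A : ValuationSubring K) (h : KLine ξ η a b) {p q : ℕ} (hp : p.Prime) (hp2 : p ≠ 2)
  (hq : q.Prime) (hq2 : q ≠ 2) (hpq : p ≠ q) (hqA : (q : K) ∈ A.nonunits)
  (σ : K →+* K) (s : G →+ G) (hσ : ∀ x ∈ A, σ x - x ∈ A.nonunits) (hs0 : ∀ Q, s Q = 0 → Q = 0)
  (hsξ : ∀ Q, Q ≠ 0 → ξ (s Q) = σ (ξ Q)) (hsη : ∀ Q, Q ≠ 0 → η (s Q) = σ (η Q))
include h hp hp2 hq hq2 hpq hqA hσ hs0 hsξ hsη

theorem core_mult (ha : A.valuation a = 1) (hb : A.valuation b < 1) (hb0 : b ≠ 0)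
    (d : K) (hd0 : d ≠ 0) (hσd : σ d = d) (hd1 : d ∈ A)
    (hdb : A.valuation d ^ p = A.valuation b ^ 2) (P : G) (hpP : p • P = 0) : s P = P := by
  by_cases hP : P = 0
  · rw [hP, map_zero]
  have h2 := core_val_two A hq hq2 hqA
  have haA : a ∈ A := (A.valuation_le_one_iff _).1 ha.le
  have hbA : b ∈ A := (A.valuation_le_one_iff _).1 hb.le
  have hint : ∀ Q : G, Q ≠ 0 → p • Q = 0 → ξ Q ∈ A := fun Q hQ hpQ =>
    integral_of_torsion A h haA hbA hp hp2 hq hq2 hpq hqA Q hQ hpQ
  obtain ⟨P₀, k, hk, hP₀, hpP₀, hcase⟩ := walk A h ha hb hb0 h2 hp hp2 hint P hP hpP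
  have hfix : s P₀ = P₀ := by
    rcases hcase with h1 | ⟨h1, h3, h4⟩
    · have h5 := eta_unit_mult A h ha hb h2 hp hp2 hint P₀ hP₀ hpP₀ h1
      exact fixed_of_val A h haA h2 σ s hσ hs0 hsξ hsη hint P₀ hP₀ hpP₀ 1 one_ne_zero (map_one σ)
        A.one_mem (by rw [h1, map_one]) (by rw [h5, map_one]) (by rw [map_one]; exact hb.le)
    · have h5 : A.valuation (ξ P₀) = A.valuation d :=
        (pow_left_inj₀ zero_le zero_le hp.ne_zero).1 (h1.trans hdb.symm)
      have h6 := eta_val_node A h ha h2 P₀ hP₀ h4 h3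
      exact fixed_of_val A h haA h2 σ s hσ hs0 hsξ hsη hint P₀ hP₀ hpP₀ d hd0 hσd hd1 h5
        (h6.trans h5) (h5 ▸ h3.le)
  rw [hk, map_nsmul, hfix]

theorem core_good (ha : a ∈ A) (hb : A.valuation b = 1) (hd : A.valuation (a ^ 2 - 4 * b) = 1)
    (P : G) (hpP : p • P = 0) : s P = P := by
  by_cases hP : P = 0
  · rw [hP, map_zero]
  have h2 := core_val_two A hq hq2 hqA
  have hbA : b ∈ A := (A.valuation_le_one_iff _).1 hb.le
  have hint : ∀ Q : G, Q ≠ 0 → p • Q = 0 → ξ Q ∈ A := fun Q hQ hpQ =>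
    integral_of_torsion A h ha hbA hp hp2 hq hq2 hpq hqA Q hQ hpQ
  obtain ⟨h1, h5⟩ := eta_unit_good A h ha hb hd h2 hp hp2 hint P hP hpP
  exact fixed_of_val A h ha h2 σ s hσ hs0 hsξ hsη hint P hP hpP 1 one_ne_zero (map_one σ)
    A.one_mem (by rw [h1, map_one]) (by rw [h5, map_one]) (by rw [map_one]; exact hb.le)

end

end Fermat.Agent.S05
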